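import Fermat.Agent.HT.Isog.Defs
import Fermat.Agent.HT.Ell.Velu
import Fermat.Agent.HT.Ell.Lattice
import Fermat.Agent.EC.PointIso

/-!
# Vélu's map is a homomorphism over `ℂ`

The main result is `velu_complex`, with the uniformisation `Uniformizes`.
-/

set_option autoImplicit false

open scoped Classical
open WeierstrassCurve WeierstrassCurve.Affine
open PeriodPair
open Fermat.HT.Ell Fermat.EC

noncomputable section

namespace Fermat.HT.Isog

/-- Completing square and cube. -/
def shortVC (W : Affine ℂ) : VariableChange ℂ :=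
  ⟨1, -W.b₂ / 12, -W.a₁ / 2, -(W.a₁ * (-W.b₂ / 12) + W.a₃) / 2⟩

/-- `L` uniformises `W`. -/
structure Uniformizes (L : PeriodPair) (W : Affine ℂ) : Prop where
  /-- The invariant `c₄` is `12 g₂`. -/
  h2 : 12 * L.g₂ = W.c₄
  /-- The invariant `c₆` is `216 g₃`. -/
  h3 : 216 * L.g₃ = W.c₆

/-- A non-singular complex curve is uniformised by some lattice. -/
lemma exists_uniformizes (W : Affine ℂ) (hΔ : W.Δ ≠ 0) : ∃ L, Uniformizes L W := by
  obtain ⟨L, h2, h3⟩ := exists_periodPair (W.c₄ / 12) (W.c₆ / 216) (by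
    intro h
    apply hΔ
    have := W.c_relation
    linear_combination (1 / 1728) * this + h)
  exact ⟨L, by rw [h2]; ring, by rw [h3]; ring⟩

variable {W : Affine ℂ} {L : PeriodPair} (hU : Uniformizes L W)
include hU

/-- After completing square and cube, a uniformised curve is the curve of its lattice. -/
lemma changed_short : changed (shortVC W) W = curve L := by
  have h4 : -L.g₂ / 4 = -W.c₄ / 48 := by rw [← hU.h2]; ring
  have h6 : -L.g₃ / 4 = -W.c₆ / 864 := by rw [← hU.h3]; ring
  ext <;>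
    simp [changed, curve, shortVC, variableChange_a₁, variableChange_a₂, variableChange_a₃,
      variableChange_a₄, variableChange_a₆, h4, h6, b₂, b₄, b₆, c₄, c₆] <;>
    ring

/-- `W(ℂ) → E_L(ℂ)`. -/
def toShort : W.Point →+ (curve L).Point :=
  (castHom (changed_short hU)).comp (pointHom (shortVC W) W)

/-- `toShort` is injective. -/
lemma toShort_injective : Function.Injective (toShort hU) :=
  (castHom_injective _).comp (pointHom_injective _ _)

/-- If a point corresponds to `z`, then `℘ z = x + b₂ / 12` and `℘' z / 2 = y + (a₁ x + a₃) / 2`. -/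
lemma toShort_eq_pt (hΔ : L.g₂ ^ 3 - 27 * L.g₃ ^ 2 ≠ 0) {P : W.Point} {z : ℂ}
    (hz : toShort hU P = ptHom L hΔ z) (h0 : z ∉ L.lattice) :
    ℘[L] z = xOf W P + W.b₂ / 12 ∧ ℘'[L] z / 2 = ysOf W P := by
  rw [show ptHom L hΔ z = pt L hΔ z from rfl, pt_of_notMem L hΔ h0] at hz
  rcases P with _ | ⟨x, y, hns⟩
  · rw [← Point.zero_def, map_zero, eq_comm] at hz
    exact absurd hz (Point.some_ne_zero _)
  · rw [toShort, AddMonoidHom.comp_apply, pointHom_some, castHom_some, Point.some.injEq] at hz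
    simp only [newX, newY, shortVC, Units.val_one, one_pow, div_one] at hz
    obtain ⟨hx, hy⟩ := hz
    simp only [xOf, ysOf]
    exact ⟨by rw [← hx]; ring, by rw [← hy]; ring⟩

/-- The refined lattice uniformises Vélu's curve. -/
theorem uniformizes_velu {L' : PeriodPair} {Q : W.Point} {n : ℕ} {c : ℂ} (hQ : addOrderOf Q = n)
    (hR : Refines L L' n c)
    (hcast : ∀ i : ℕ, ptHom L (disc_ne_zero L) ((i : ℂ) * c) = toShort hU (i • Q)) :
    Uniformizes L' (veluCurve W Q n) := by
  have hd := disc_ne_zero L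
  have hnot := hR.notMem
  -- the coordinates of the multiples of the point are the values at the multiples of `c`
  have hkx : ∀ i ∈ Finset.Ico 1 n, ℘[L] ((i : ℂ) * c) = xOf W (i • Q) + W.b₂ / 12 ∧
      ℘'[L] ((i : ℂ) * c) / 2 = ysOf W (i • Q) := fun i hi ↦
    toShort_eq_pt hU hd (hcast i).symm (hnot i hi)
  have hsq : ∀ i ∈ Finset.Ico 1 n, ℘'[L] ((i : ℂ) * c) ^ 2 = 4 * xOf W (i • Q) ^ 3
      + W.b₂ * xOf W (i • Q) ^ 2 + 2 * W.b₄ * xOf W (i • Q) + W.b₆ := fun i hi ↦ by
    rw [L.derivWeierstrassP_sq _ (hnot i hi), (hkx i hi).1]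
    have h2 := hU.h2
    have h3 := hU.h3
    simp only [c₄, c₆] at h2 h3
    linear_combination (-(xOf W (i • Q) + W.b₂ / 12) / 12) * h2 - (1 / 216) * h3
  -- compare the invariants of the refined lattice with Vélu's formulas
  obtain ⟨i2, i3⟩ := velu_invariants hR
  constructor
  · rw [c₄_veluCurve, veluT, sum_kerSet_erase hQ, i2, mul_add, hU.h2, ← mul_assoc,
      mul_div_assoc', ← div_mul_eq_mul_div, Finset.mul_sum, Finset.mul_sum]
    congr 1
    refine Finset.sum_congr rfl fun i hi ↦ ?_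
    have h2 := hU.h2
    simp only [c₄] at h2
    rw [(hkx i hi).1]
    linear_combination (-5) * h2
  · have e : ∀ i ∈ Finset.Ico 1 n, 216 * (7 / 6 * (12 * ℘'[L] ((i : ℂ) * c) ^ 2
        + 12 * ℘[L] ((i : ℂ) * c) * (6 * ℘[L] ((i : ℂ) * c) ^ 2 - L.g₂ / 2))) =
        252 * W.b₂ * (6 * xOf W (i • Q) ^ 2 + W.b₂ * xOf W (i • Q) + W.b₄) +
        3024 * (10 * xOf W (i • Q) ^ 3 + 2 * W.b₂ * xOf W (i • Q) ^ 2
          + 3 * W.b₄ * xOf W (i • Q) + W.b₆) := fun i hi ↦ by
      have h2 := hU.h2
      simp only [c₄] at h2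
      rw [hsq i hi, (hkx i hi).1]
      linear_combination (-126 * (xOf W (i • Q) + W.b₂ / 12)) * h2
    rw [c₆_veluCurve, veluT, veluU, sum_kerSet_erase hQ, sum_kerSet_erase hQ, i3, mul_add, hU.h3,
      Finset.mul_sum, Finset.mul_sum, Finset.sum_congr rfl e, Finset.sum_add_distrib,
      ← Finset.mul_sum, ← Finset.mul_sum]
    ring

/-- A point lies in the subgroup of `Q` exactly when its parameter lies in the refined lattice. -/
theorem mem_refined_iff {L' : PeriodPair} {Q : W.Point} {n : ℕ} {c : ℂ} (hR : Refines L L' n c)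
    (hQn : n • Q = 0)
    (hcast : ∀ i : ℕ, ptHom L (disc_ne_zero L) ((i : ℂ) * c) = toShort hU (i • Q)) {P : W.Point}
    {z : ℂ} (hz : toShort hU P = ptHom L (disc_ne_zero L) z) :
    z ∈ L'.lattice ↔ P ∈ kerSet W Q n := by
  have hd := disc_ne_zero L
  rw [hR.mem_iff, mem_kerSet]
  constructor
  · rintro ⟨i, hi, him⟩
    rw [← ptHom_eq_zero_iff L hd, map_add, ← hz, hcast, ← map_add,
      map_eq_zero_iff _ (toShort_injective hU)] at him
    simp at hi
    rcases Nat.eq_zero_or_pos i with rfl | hipos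
    · exact ⟨0, hR.pos, by simpa [eq_comm] using him⟩
    refine ⟨n - i, by omega, ?_⟩
    have : (n - i) • Q + i • Q = 0 := by rw [← add_smul, Nat.sub_add_cancel hi.le, hQn]
    exact add_right_cancel (this.trans him.symm)
  · rintro ⟨i, hi, rfl⟩
    rw [← hcast] at hz
    have hz' : z - (i : ℂ) * c ∈ L.lattice := by
      rw [← ptHom_eq_zero_iff L hd, map_sub, hz, sub_self]
    rcases Nat.eq_zero_or_pos i with rfl | hipos
    · exact ⟨0, by simp [hR.pos], by simpa using hz'⟩
    refine ⟨n - i, by simp; omega, ?_⟩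
    have := add_mem hz' hR.mul_mem
    rw [Nat.cast_sub hi.le]
    convert this using 1; ring

/-- Over `ℂ` Vélu's map by a point of prime order is a homomorphism to a non-singular curve. -/
theorem velu_complex {Q : W.Point} {n : ℕ} (hn : n.Prime) (hQ : addOrderOf Q = n) :
    (veluCurve W Q n).Δ ≠ 0 ∧
      (∀ P, P ∉ kerSet W Q n → (veluCurve W Q n).Nonsingular (veluX W Q n P) (veluY W Q n P)) ∧
      (∀ P P', veluMap W Q n (P + P') = veluMap W Q n P + veluMap W Q n P') := by
  have hd := disc_ne_zero L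
  -- `Q` comes from some `c`; refine the lattice by `c`.
  obtain ⟨c, hc⟩ := ptHom_surjective L hd (toShort hU Q)
  have hQn : n • Q = 0 := hQ ▸ addOrderOf_nsmul_eq_zero Q
  have hcast : ∀ i : ℕ, ptHom L hd ((i : ℂ) * c) = toShort hU (i • Q) := fun i ↦ by
    rw [map_nsmul, ← hc, ← map_nsmul, nsmul_eq_mul]
  have hnmem : (n : ℂ) * c ∈ L.lattice := by
    rw [← ptHom_eq_zero_iff L hd, hcast, hQn, map_zero]
  have hnot : ∀ i : ℕ, i ∈ Finset.Ico 1 n → (i : ℂ) * c ∉ L.lattice := fun i hi hmem ↦ by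
    rw [← ptHom_eq_zero_iff L hd, hcast, map_eq_zero_iff _ (toShort_injective hU),
      ← addOrderOf_dvd_iff_nsmul_eq_zero, hQ] at hmem
    simp at hi
    exact absurd (Nat.le_of_dvd (by omega) hmem) (by omega)
  obtain ⟨L', hL'⟩ := exists_refine L hn (by simpa using hnot 1 (by simp [hn.one_lt])) hnmem
  have hR : Refines L L' n c := ⟨hL', hnmem, hnot, hn.pos⟩
  have hkx : ∀ i ∈ Finset.Ico 1 n, ℘[L] ((i : ℂ) * c) = xOf W (i • Q) + W.b₂ / 12 ∧
      ℘'[L] ((i : ℂ) * c) / 2 = ysOf W (i • Q) := fun i hi ↦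
    toShort_eq_pt hU hd (hcast i).symm (hnot i hi)
  -- The refined lattice uniformises Vélu's curve, which is therefore non-singular.
  have hU' : Uniformizes L' (veluCurve W Q n) := uniformizes_velu hU hQ hR hcast
  have hd' := disc_ne_zero L'
  have hΔ' : (veluCurve W Q n).Δ ≠ 0 := by
    intro h
    apply hd'
    have hrel := (veluCurve W Q n).c_relation
    rw [h, ← hU'.h2, ← hU'.h3, mul_zero] at hrel
    linear_combination (-1 / 1728) * hrel
  -- `z` lies in the refined lattice iff its point lies in the subgroup.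
  have hmem : ∀ {P : W.Point} {z : ℂ}, toShort hU P = ptHom L hd z →
      (z ∈ L'.lattice ↔ P ∈ kerSet W Q n) := mem_refined_iff hU hR hQn hcast
  -- Off the subgroup Vélu's coordinates are given by `℘` of the refined lattice.
  have hval : ∀ {P : W.Point} {z : ℂ}, toShort hU P = ptHom L hd z → z ∉ L'.lattice →
      (℘[L'] z = veluX W Q n P + W.b₂ / 12) ∧
        ℘'[L'] z / 2 = veluY W Q n P + (W.a₁ * veluX W Q n P + W.a₃) / 2 := by
    intro P z hz hzn
    have hterm : ∀ i : ℕ, ℘[L] (z + (i : ℂ) * c) = xOf W (P + i • Q) + W.b₂ / 12 ∧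
        ℘'[L] (z + (i : ℂ) * c) / 2 = ysOf W (P + i • Q) := fun i ↦
      toShort_eq_pt hU hd (by rw [map_add, map_add, hz, hcast]) (hR.notMem' hzn i)
    constructor
    · rw [velu_weierstrassP hR hzn, Finset.sum_congr rfl fun i _ ↦ (hterm i).1,
        Finset.sum_congr rfl fun i hi ↦ (hkx i hi).1, veluX, sum_kerSet hQ, sum_kerSet hQ,
        Finset.sum_add_distrib, Finset.sum_add_distrib, Finset.sum_range_eq_add_Ico
          (fun i ↦ xOf W (i • Q)) hn.pos]
      have h0 : xOf W (0 • Q) = 0 := by rw [zero_nsmul]; rfl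
      simp only [Finset.sum_const, Finset.card_range, Nat.card_Ico, nsmul_eq_mul, h0,
        Nat.cast_sub hn.one_le, Nat.cast_one]
      ring
    · rw [veluY, sum_kerSet hQ, sub_add_cancel, velu_derivWeierstrassP hR hzn, Finset.sum_div]
      exact Finset.sum_congr rfl fun i _ ↦ (hterm i).2
  have hns : ∀ P, P ∉ kerSet W Q n →
      (veluCurve W Q n).Nonsingular (veluX W Q n P) (veluY W Q n P) := by
    intro P hP
    obtain ⟨z, hz⟩ := ptHom_surjective L hd (toShort hU P)
    have hzn : z ∉ L'.lattice := fun h ↦ hP ((hmem hz.symm).1 h)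
    obtain ⟨hX, hY⟩ := hval hz.symm hzn
    refine (equation_iff_nonsingular_of_Δ_ne_zero hΔ').1 ?_
    rw [← equation_new (shortVC (veluCurve W Q n)), changed_short hU']
    have ex : newX (shortVC (veluCurve W Q n)) (veluX W Q n P) = ℘[L'] z := by
      simp only [newX, shortVC, b₂_veluCurve, Units.val_one]; rw [hX]; ring
    have ey : newY (shortVC (veluCurve W Q n)) (veluX W Q n P) (veluY W Q n P)
        = ℘'[L'] z / 2 := by
      simp only [newY, shortVC, veluCurve, b₂, Units.val_one]; rw [hY]; ring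
    rw [ex, ey]
    exact equation_pt L' hzn
  -- So Vélu's map is induced by the identity of `ℂ`, hence additive.
  have key : ∀ P z, toShort hU P = ptHom L hd z →
      toShort hU' (veluMap W Q n P) = ptHom L' hd' z := by
    intro P z hz
    by_cases hP : P ∈ kerSet W Q n
    · rw [veluMap, dif_neg (fun h ↦ h.1 hP), map_zero, eq_comm, ptHom_eq_zero_iff]
      exact (hmem hz).2 hP
    · have hzn : z ∉ L'.lattice := fun h ↦ hP ((hmem hz).1 h)
      obtain ⟨hX, hY⟩ := hval hz hzn
      rw [veluMap, dif_pos ⟨hP, hns P hP⟩, show ptHom L' hd' z = pt L' hd' z from rfl,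
        pt_of_notMem L' hd' hzn, toShort, AddMonoidHom.comp_apply, pointHom_some, castHom_some,
        Point.some.injEq]
      simp [newX, newY, shortVC, hX, hY, veluCurve, b₂]
      constructor <;> ring
  refine ⟨hΔ', hns, fun P P' ↦ toShort_injective hU' ?_⟩
  obtain ⟨z, hz⟩ := ptHom_surjective L hd (toShort hU P)
  obtain ⟨z', hz'⟩ := ptHom_surjective L hd (toShort hU P')
  rw [map_add, key P z hz.symm, key P' z' hz'.symm,
    key (P + P') (z + z') (by rw [map_add, map_add, hz, hz']), map_add]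

end Fermat.HT.Isog
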