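import Mathlib.AlgebraicGeometry.EllipticCurve.Affine.Point
import Mathlib.GroupTheory.OrderOfElement

/-!
# Vélu's formulas

The sums over the kernel are `veluT` and `veluU`, giving the curve `veluCurve` and its invariants.
-/

set_option autoImplicit false

open scoped Classical
open WeierstrassCurve WeierstrassCurve.Affine Finset

noncomputable section

namespace Fermat.HT.Isog

variable {K : Type*} [Field K] [DecidableEq K] (W : Affine K)

/-- `x`-coordinate, `0 ↦ 0`. -/
def xOf : W.Point → K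
  | .zero => 0
  | .some x _ _ => x

/-- `y + (a₁ x + a₃) / 2`, `0 ↦ 0`. -/
def ysOf : W.Point → K
  | .zero => 0
  | .some x y _ => y + (W.a₁ * x + W.a₃) / 2

/-- The multiples `i • Q`, `i < n`. -/
def kerSet (Q : W.Point) (n : ℕ) : Finset W.Point := (range n).image fun i ↦ i • Q

variable (Q : W.Point) (n : ℕ)

/-- Vélu's sum `t` over the kernel. -/
def veluT : K :=
  (∑ R ∈ (kerSet W Q n).erase 0, (6 * xOf W R ^ 2 + W.b₂ * xOf W R + W.b₄)) / 2

/-- Vélu's sum `u` (his `w`) over the kernel. -/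
def veluU : K :=
  (∑ R ∈ (kerSet W Q n).erase 0,
    (10 * xOf W R ^ 3 + 2 * W.b₂ * xOf W R ^ 2 + 3 * W.b₄ * xOf W R + W.b₆)) / 2

/-- The quotient curve. -/
def veluCurve : Affine K :=
  ⟨W.a₁, W.a₂, W.a₃, W.a₄ - 5 * veluT W Q n, W.a₆ - W.b₂ * veluT W Q n - 7 * veluU W Q n⟩

/-- The `x`-coordinate of the image of a point. -/
def veluX (P : W.Point) : K :=
  ∑ R ∈ kerSet W Q n, xOf W (P + R) - ∑ R ∈ kerSet W Q n, xOf W R

/-- The `y`-coordinate of the image of a point. -/
def veluY (P : W.Point) : K :=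
  ∑ R ∈ kerSet W Q n, ysOf W (P + R) - (W.a₁ * veluX W Q n P + W.a₃) / 2

/-- The quotient map (additive once `Q` has prime order `n`). -/
def veluMap (P : W.Point) : (veluCurve W Q n).Point :=
  if h : P ∉ kerSet W Q n ∧ (veluCurve W Q n).Nonsingular (veluX W Q n P) (veluY W Q n P) then
    .some _ _ h.2
  else 0

variable {W Q n}

/-- Membership in `kerSet`. -/
lemma mem_kerSet {P : W.Point} : P ∈ kerSet W Q n ↔ ∃ i < n, i • Q = P := by
  simp [kerSet]

/-- The multiples `i • Q`, `i < n`, are distinct when `Q` has order `n`. -/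
lemma kerSet_injOn (hQ : addOrderOf Q = n) :
    Set.InjOn (fun i : ℕ ↦ i • Q) (range n : Set ℕ) := by
  intro i hi j hj hij
  exact nsmul_injOn_Iio_addOrderOf (by simpa [hQ] using hi) (by simpa [hQ] using hj) hij

/-- A sum over `kerSet` as a sum over `i < n`. -/
lemma sum_kerSet {M : Type*} [AddCommMonoid M] (hQ : addOrderOf Q = n) (f : W.Point → M) :
    ∑ R ∈ kerSet W Q n, f R = ∑ i ∈ range n, f (i • Q) :=
  sum_image (kerSet_injOn hQ)

/-- A sum over the nonzero elements of `kerSet` as a sum over `1 ≤ i < n`. -/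
lemma sum_kerSet_erase {M : Type*} [AddCommMonoid M] (hQ : addOrderOf Q = n) (f : W.Point → M) :
    ∑ R ∈ (kerSet W Q n).erase 0, f R = ∑ i ∈ Finset.Ico 1 n, f (i • Q) := by
  have he : (kerSet W Q n).erase 0 = (Finset.Ico 1 n).image fun i ↦ i • Q := by
    ext R
    simp only [kerSet, mem_erase, mem_image, mem_range, Finset.mem_Ico, ne_eq]
    constructor
    · rintro ⟨h0, i, hi, rfl⟩
      exact ⟨i, ⟨Nat.one_le_iff_ne_zero.2 fun h ↦ h0 (by rw [h, zero_smul]), hi⟩, rfl⟩
    · rintro ⟨i, ⟨hi1, hi⟩, rfl⟩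
      refine ⟨fun h0 ↦ ?_, i, hi, rfl⟩
      have : i = 0 := kerSet_injOn hQ (by simp [hi]) (by simp; omega)
        (show i • Q = 0 • Q by simpa using h0)
      omega
  rw [he, sum_image fun i hi j hj h ↦
    kerSet_injOn hQ (by simp at hi ⊢; exact hi.2) (by simp at hj ⊢; exact hj.2) h]

/-- Vélu's curve has the same `b₂`. -/
lemma b₂_veluCurve : (veluCurve W Q n : WeierstrassCurve K).b₂ = W.b₂ := by
  simp [veluCurve, b₂]

/-- The invariant `c₄` of Vélu's curve. -/
lemma c₄_veluCurve : (veluCurve W Q n : WeierstrassCurve K).c₄ = W.c₄ + 240 * veluT W Q n := by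
  simp only [veluCurve, c₄, b₂, b₄]; ring

/-- The invariant `c₆` of Vélu's curve. -/
lemma c₆_veluCurve : (veluCurve W Q n : WeierstrassCurve K).c₆
    = W.c₆ + 504 * W.b₂ * veluT W Q n + 6048 * veluU W Q n := by
  simp only [veluCurve, c₆, b₂, b₄, b₆]; ring

end Fermat.HT.Isog
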