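import Fermat.Agent.HT.Isog.Defs
import Mathlib.Algebra.Algebra.Rat

/-!
# Vélu's formulas commute with field embeddings

Among them are `veluT_map`, `veluU_map` and `veluX_map`.
-/

set_option autoImplicit false

open WeierstrassCurve WeierstrassCurve.Affine Finset
open scoped WeierstrassCurve.Affine

noncomputable section

namespace Fermat.HT.Isog

variable {V : WeierstrassCurve ℚ} {F K : Type*} [Field F] [Field K] [DecidableEq F] [DecidableEq K]
  [Algebra ℚ F] [Algebra ℚ K] (f : F →ₐ[ℚ] K)

omit [DecidableEq F] [DecidableEq K] in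
/-- A field embedding carries the coefficients `a₁`, `a₃` and `b₂`, `b₄`, `b₆` over. -/
lemma apply_coeff :
    f (V⁄F).a₁ = (V⁄K).a₁ ∧ f (V⁄F).a₃ = (V⁄K).a₃ ∧ f (V⁄F).b₂ = (V⁄K).b₂ ∧
      f (V⁄F).b₄ = (V⁄K).b₄ ∧ f (V⁄F).b₆ = (V⁄K).b₆ := by
  have e : (V⁄F).map (f : F →+* K) = V⁄K := WeierstrassCurve.map_baseChange V f
  refine ⟨by rw [← e]; rfl, by rw [← e]; rfl, ?_, ?_, ?_⟩
  · rw [← congrArg WeierstrassCurve.b₂ e, map_b₂]; rfl
  · rw [← congrArg WeierstrassCurve.b₄ e, map_b₄]; rfl
  · rw [← congrArg WeierstrassCurve.b₆ e, map_b₆]; rfl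

/-- `xOf` commutes with a field embedding. -/
lemma xOf_map : ∀ P : (V⁄F : Affine F).Point,
    xOf (V⁄K : Affine K) (Point.map f P) = f (xOf (V⁄F : Affine F) P)
  | .zero => (map_zero f).symm
  | .some _ _ _ => rfl

/-- `ysOf` commutes with a field embedding. -/
lemma ysOf_map : ∀ P : (V⁄F : Affine F).Point,
    ysOf (V⁄K : Affine K) (Point.map f P) = f (ysOf (V⁄F : Affine F) P)
  | .zero => (map_zero f).symm
  | .some x y _ => by
    obtain ⟨h1, h3, -⟩ := apply_coeff (V := V) f
    change f y + ((V⁄K).a₁ * f x + (V⁄K).a₃) / 2 = f (y + ((V⁄F).a₁ * x + (V⁄F).a₃) / 2)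
    rw [← h1, ← h3]
    simp [map_ofNat]

/-- `kerSet` commutes with a field embedding. -/
lemma kerSet_map (Q : (V⁄F : Affine F).Point) (n : ℕ) :
    kerSet (V⁄K : Affine K) (Point.map f Q) n = (kerSet (V⁄F : Affine F) Q n).image
      (Point.map f) := by
  simp only [kerSet, image_image, Function.comp_def, map_nsmul]

/-- The nonzero part of `kerSet` commutes with a field embedding. -/
lemma kerSet_map_erase (Q : (V⁄F : Affine F).Point) (n : ℕ) :
    (kerSet (V⁄K : Affine K) (Point.map f Q) n).erase 0 =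
      ((kerSet (V⁄F : Affine F) Q n).erase 0).image (Point.map f) := by
  rw [kerSet_map, image_erase (Point.map_injective f), map_zero]

/-- `veluT` commutes with a field embedding. -/
lemma veluT_map (Q : (V⁄F : Affine F).Point) (n : ℕ) :
    veluT (V⁄K : Affine K) (Point.map f Q) n = f (veluT (V⁄F : Affine F) Q n) := by
  simp only [veluT, kerSet_map_erase, sum_image ((Point.map_injective f).injOn), xOf_map]
  obtain ⟨h1, h3, h2, h4, h6⟩ := apply_coeff (V := V) f
  simp [map_sum, map_ofNat, h2, h4]

/-- `veluU` commutes with a field embedding. -/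
lemma veluU_map (Q : (V⁄F : Affine F).Point) (n : ℕ) :
    veluU (V⁄K : Affine K) (Point.map f Q) n = f (veluU (V⁄F : Affine F) Q n) := by
  simp only [veluU, kerSet_map_erase, sum_image ((Point.map_injective f).injOn), xOf_map]
  obtain ⟨h1, h3, h2, h4, h6⟩ := apply_coeff (V := V) f
  simp [map_sum, map_ofNat, h2, h4, h6]

/-- `veluX` commutes with a field embedding. -/
lemma veluX_map (Q : (V⁄F : Affine F).Point) (n : ℕ) (P : (V⁄F : Affine F).Point) :
    veluX (V⁄K : Affine K) (Point.map f Q) n (Point.map f P)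
      = f (veluX (V⁄F : Affine F) Q n P) := by
  simp only [veluX, kerSet_map, sum_image ((Point.map_injective f).injOn), ← map_add, xOf_map,
    map_sub, map_sum]

/-- `veluY` commutes with a field embedding. -/
lemma veluY_map (Q : (V⁄F : Affine F).Point) (n : ℕ) (P : (V⁄F : Affine F).Point) :
    veluY (V⁄K : Affine K) (Point.map f Q) n (Point.map f P)
      = f (veluY (V⁄F : Affine F) Q n P) := by
  simp only [veluY, veluX_map, kerSet_map, sum_image ((Point.map_injective f).injOn), ← map_add,
    ysOf_map]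
  obtain ⟨h1, h3, h2, h4, h6⟩ := apply_coeff (V := V) f
  simp [map_sum, map_ofNat]

/-- The image of a point lies in the image of `kerSet` iff the point lies in `kerSet`. -/
lemma mem_kerSet_map (Q : (V⁄F : Affine F).Point) (n : ℕ) (P : (V⁄F : Affine F).Point) :
    Point.map f P ∈ kerSet (V⁄K : Affine K) (Point.map f Q) n
      ↔ P ∈ kerSet (V⁄F : Affine F) Q n := by
  rw [kerSet_map, (Point.map_injective f).mem_finset_image]

/-- A field embedding preserves the order of a point. -/
lemma addOrderOf_map (Q : (V⁄F : Affine F).Point) :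
    addOrderOf (Point.map f Q) = addOrderOf Q :=
  addOrderOf_injective _ (Point.map_injective f) Q

end Fermat.HT.Isog
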