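import Mathlib.RingTheory.RootsOfUnity.PrimitiveRoots
import Mathlib.Algebra.BigOperators.Intervals
import Mathlib.Algebra.BigOperators.Field
import Mathlib.Algebra.Field.GeomSum
import Mathlib.Tactic.LinearCombination
import Mathlib.Tactic.FieldSimp

/-!
# Sums of `ζ / (1 - ζ)²` and its powers over the nontrivial roots of unity

The sums are `S`, and `sum_closed_forms` gives those needed for `c₄` and `c₆`.
-/

set_option autoImplicit false

open Finset

noncomputable section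

namespace Fermat.HT.Isog.PowerSums

variable {L : Type*} [Field L] [CharZero L]

/-- The closed form used for the power sum of degree 1. -/
def p1 (n a : L) : L := (-1 - n + 2 * a) / 2

/-- The closed form used for the power sum of degree 2. -/
def p2 (n a : L) : L := (-5 - 6 * n - n ^ 2 + 12 * a + 6 * n * a - 6 * a ^ 2) / 12

/-- The closed form used for the power sum of degree 3. -/
def p3 (n a : L) : L := (-9 - 12 * n - 3 * n ^ 2 + 24 * a + 18 * n * a + 2 * n ^ 2 * a - 18 *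
    a ^ 2 - 6 * n * a ^ 2 + 4 * a ^ 3) / 24

/-- The closed form used for the power sum of degree 4. -/
def p4 (n a : L) : L := (-251 - 360 * n - 110 * n ^ 2 + n ^ 4 + 720 * a + 660 * n * a +
    120 * n ^ 2 * a - 660 * a ^ 2 - 360 * n * a ^ 2 - 30 * n ^ 2 * a ^ 2 + 240 * a ^ 3 + 60 *
    n * a ^ 3 - 30 * a ^ 4) / 720

/-- The closed form used for the power sum of degree 5. -/
def p5 (n a : L) : L := (-475 - 720 * n - 250 * n ^ 2 + 5 * n ^ 4 + 1440 * a + 1500 * n * a +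
    350 * n ^ 2 * a - 2 * n ^ 4 * a - 1500 * a ^ 2 - 1050 * n * a ^ 2 - 150 * n ^ 2 * a ^ 2 +
    700 * a ^ 3 + 300 * n * a ^ 3 + 20 * n ^ 2 * a ^ 3 - 150 * a ^ 4 - 30 * n * a ^ 4 + 12 *
    a ^ 5) / 1440

/-- The closed form used for the power sum of degree 6. -/
def p6 (n a : L) : L := (-19087 - 30240 * n - 11508 * n ^ 2 + 357 * n ^ 4 - 2 * n ^ 6 + 60480
    * a + 69048 * n * a + 18900 * n ^ 2 * a - 252 * n ^ 4 * a - 69048 * a ^ 2 - 56700 * n * a
    ^ 2 - 10710 * n ^ 2 * a ^ 2 + 42 * n ^ 4 * a ^ 2 + 37800 * a ^ 3 + 21420 * n * a ^ 3 +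
    2520 * n ^ 2 * a ^ 3 - 10710 * a ^ 4 - 3780 * n * a ^ 4 - 210 * n ^ 2 * a ^ 4 + 1512 * a
    ^ 5 + 252 * n * a ^ 5 - 84 * a ^ 6) / 60480

/-- The closed form used for the power sum of degree 7. -/
def p7 (n a : L) : L := (-36799 - 60480 * n - 24696 * n ^ 2 + 1029 * n ^ 4 - 14 * n ^ 6 +
    120960 * a + 148176 * n * a + 45472 * n ^ 2 * a - 980 * n ^ 4 * a + 4 * n ^ 6 * a -
    148176 * a ^ 2 - 136416 * n * a ^ 2 - 30870 * n ^ 2 * a ^ 2 + 294 * n ^ 4 * a ^ 2 + 90944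
    * a ^ 3 + 61740 * n * a ^ 3 + 9800 * n ^ 2 * a ^ 3 - 28 * n ^ 4 * a ^ 3 - 30870 * a ^ 4 -
    14700 * n * a ^ 4 - 1470 * n ^ 2 * a ^ 4 + 5880 * a ^ 5 + 1764 * n * a ^ 5 + 84 * n ^ 2 *
    a ^ 5 - 588 * a ^ 6 - 84 * n * a ^ 6 + 24 * a ^ 7) / 120960

variable {n : ℕ} {ζ : L}

/-- `∑ x ^ a / (1 - x) ^ k` over the nontrivial `n`-th roots of unity `x`. -/
def S (ζ : L) (n k a : ℕ) : L := ∑ j ∈ Ico 1 n, (ζ ^ j) ^ a / (1 - ζ ^ j) ^ k

variable (hζ : IsPrimitiveRoot ζ n)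
include hζ

omit [CharZero L] in
/-- `1 - ζ ^ j` is nonzero for `1 ≤ j < n`. -/
lemma one_sub_ne {j : ℕ} (hj : j ∈ Ico 1 n) : (1 : L) - ζ ^ j ≠ 0 := by
  rw [mem_Ico] at hj
  exact sub_ne_zero.mpr (hζ.pow_ne_one_of_pos_of_lt (by omega) hj.2).symm

omit [CharZero L] in
/-- `S ζ n 0 a = -1` for `1 ≤ a < n`. -/
lemma S_zero {a : ℕ} (ha : a ∈ Ico 1 n) : S ζ n 0 a = -1 := by
  rw [mem_Ico] at ha
  have h1 : ζ ^ a ≠ 1 := hζ.pow_ne_one_of_pos_of_lt (by omega) ha.2
  have h2 : ∑ j ∈ range n, (ζ ^ a) ^ j = 0 := by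
    rw [geom_sum_eq h1, ← pow_mul, mul_comm, pow_mul, hζ.pow_eq_one, one_pow, sub_self, zero_div]
  rw [range_eq_Ico, sum_eq_sum_Ico_succ_bot (by omega), pow_zero] at h2
  simp only [S, pow_zero, div_one, ← pow_mul, mul_comm _ a]
  simp only [← pow_mul] at h2
  linear_combination h2

omit [CharZero L] in
/-- The sum of `S ζ n k a` over a period of `a` vanishes. -/
lemma sum_S (k : ℕ) : ∑ a ∈ Ico 1 (n + 1), S ζ n k a = 0 := by
  simp only [S]
  rw [sum_comm]
  refine sum_eq_zero fun j hj => ?_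
  rw [← Finset.sum_div, sum_Ico_eq_sum_range, Nat.add_sub_cancel]
  simp only [pow_add, pow_one, ← mul_sum]
  rw [geom_sum_eq (sub_ne_zero.mp (one_sub_ne hζ hj)).symm, ← pow_mul, mul_comm j, pow_mul,
    hζ.pow_eq_one, one_pow, sub_self, zero_div, mul_zero, zero_div]

omit [CharZero L] in
/-- `S ζ n (k + 1) a - S ζ n (k + 1) (a + 1) = S ζ n k a`. -/
lemma S_sub (k a : ℕ) : S ζ n (k + 1) a - S ζ n (k + 1) (a + 1) = S ζ n k a := by
  simp only [S, ← sum_sub_distrib]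
  refine sum_congr rfl fun j hj => ?_
  have := one_sub_ne hζ hj
  rw [div_sub_div_same, show (ζ ^ j) ^ a - (ζ ^ j) ^ (a + 1) = (ζ ^ j) ^ a * (1 - ζ ^ j) by ring,
    pow_succ, mul_div_mul_right _ _ this]

/-- One summation by parts for the power sums. -/
lemma S_succ_eq {k : ℕ} {p q r : L → L} (hp : ∀ a ∈ Ico 1 n, S ζ n k a = p (a : ℕ))
    (hq : ∀ a, q a - q (a + 1) = p a) (hr : ∀ a, r a - r (a + 1) = q a)
    (hr1 : r 1 = r ((n : L) + 1)) :
    ∀ a ∈ Ico 1 (n + 1), S ζ n (k + 1) a = q (a : ℕ) := by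
  rcases Nat.eq_zero_or_pos n with rfl | hn
  · intro a ha; simp at ha
  -- the difference from `q` is constant, as both have the difference `p`
  have hconst : ∀ a, 1 ≤ a → a ≤ n →
      S ζ n (k + 1) a - q (a : ℕ) = S ζ n (k + 1) 1 - q (1 : ℕ) := by
    intro a ha
    induction a, ha using Nat.le_induction with
    | base => exact fun _ => rfl
    | succ a ha ih =>
      intro han
      rw [← ih (by omega)]
      have h1 := (S_sub hζ k a).trans (hp a (mem_Ico.mpr ⟨ha, by omega⟩))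
      have h2 := hq (a : L)
      push_cast
      linear_combination h2 - h1
  -- the sum of `q` telescopes to zero
  have htel : ∀ m : ℕ, ∑ a ∈ Ico 1 (m + 1), q (a : ℕ) = r 1 - r ((m : L) + 1) := by
    intro m
    induction m with
    | zero => simp
    | succ m ih =>
      rw [sum_Ico_succ_top (by omega), ih]
      push_cast
      linear_combination -(hr ((m : L) + 1))
  -- so the constant vanishes
  have hzero : S ζ n (k + 1) 1 - q (1 : ℕ) = 0 := by
    have h := sum_S hζ (k + 1)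
    rw [show ∑ a ∈ Ico 1 (n + 1), S ζ n (k + 1) a =
      ∑ a ∈ Ico 1 (n + 1), ((S ζ n (k + 1) 1 - q (1 : ℕ)) + q (a : ℕ)) from sum_congr rfl
        fun a ha => by
          rw [mem_Ico] at ha
          rw [← hconst a ha.1 (by omega), sub_add_cancel],
      sum_add_distrib, htel, hr1, sub_self, add_zero, sum_const, Nat.card_Ico,
      Nat.add_sub_cancel, nsmul_eq_mul] at h
    exact (mul_eq_zero.mp h).resolve_left (Nat.cast_ne_zero.mpr hn.ne')
  intro a ha
  rw [mem_Ico] at ha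
  exact sub_eq_zero.mp ((hconst a ha.1 (by omega)).trans hzero)

/-- The closed forms needed for `c₄` and `c₆`. -/
theorem sum_closed_forms (hn : 3 ≤ n) :
    (∑ j ∈ Ico 1 n, (6 * (ζ ^ j / (1 - ζ ^ j) ^ 2) ^ 2 + ζ ^ j / (1 - ζ ^ j) ^ 2))
        = ((n : L) ^ 4 - 1) / 120 ∧
      (∑ j ∈ Ico 1 n, (120 * (ζ ^ j / (1 - ζ ^ j) ^ 2) ^ 3
          + 30 * (ζ ^ j / (1 - ζ ^ j) ^ 2) ^ 2 + ζ ^ j / (1 - ζ ^ j) ^ 2))
        = (1 - (n : L) ^ 6) / 252 := by
  have sub : ∀ {k : ℕ} {q : L → L}, (∀ a ∈ Ico 1 (n + 1), S ζ n k a = q (a : ℕ)) →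
      ∀ a ∈ Ico 1 n, S ζ n k a = q (a : ℕ) := fun h a ha =>
    h a (Ico_subset_Ico_right (Nat.le_succ n) ha)
  have h1 := S_succ_eq hζ (k := 0) (p := fun _ => -1) (q := p1 (n : L)) (r := p2 (n : L))
    (fun a ha => S_zero hζ ha) (fun a => by simp only [p1]; ring)
    (fun a => by simp only [p1, p2]; ring) (by simp only [p2]; ring)
  have h2 := S_succ_eq hζ (q := p2 (n : L)) (r := p3 (n : L)) (sub h1)
    (fun a => by simp only [p1, p2]; ring) (fun a => by simp only [p2, p3]; ring)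
    (by simp only [p3]; ring)
  have h3 := S_succ_eq hζ (q := p3 (n : L)) (r := p4 (n : L)) (sub h2)
    (fun a => by simp only [p2, p3]; ring) (fun a => by simp only [p3, p4]; ring)
    (by simp only [p4]; ring)
  have h4 := S_succ_eq hζ (q := p4 (n : L)) (r := p5 (n : L)) (sub h3)
    (fun a => by simp only [p3, p4]; ring) (fun a => by simp only [p4, p5]; ring)
    (by simp only [p5]; ring)
  have h5 := S_succ_eq hζ (q := p5 (n : L)) (r := p6 (n : L)) (sub h4)
    (fun a => by simp only [p4, p5]; ring) (fun a => by simp only [p5, p6]; ring)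
    (by simp only [p6]; ring)
  have h6 := S_succ_eq hζ (q := p6 (n : L)) (r := p7 (n : L)) (sub h5)
    (fun a => by simp only [p5, p6]; ring) (fun a => by simp only [p6, p7]; ring)
    (by simp only [p7]; ring)
  have e1 := h2 1 (mem_Ico.mpr ⟨le_rfl, by omega⟩)
  have e2 := h4 2 (mem_Ico.mpr ⟨by omega, by omega⟩)
  have e3 := h6 3 (mem_Ico.mpr ⟨by omega, by omega⟩)
  simp only [S, pow_one] at e1 e2 e3
  simp only [div_pow, ← pow_mul (1 - ζ ^ _) 2, Finset.sum_add_distrib, ← Finset.mul_sum]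
  rw [e1, e2, e3]
  constructor <;> (simp only [p2, p4, p6]; push_cast; ring)

end Fermat.HT.Isog.PowerSums
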