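import Fermat.Agent.HT.Isog.Rat
import Fermat.Agent.HT.Isog.PowerSums
import Fermat.Agent.EC.Cyclo

/-!
# Vélu's invariants at a place of multiplicative reduction

With the node at the origin and `α`, `β` the tangent slopes, `g = (y - α x) / (y - β x)` is
multiplicative modulo the place on the points of nonsingular reduction, so a subgroup of order `n`
prime to the residue characteristic reduces to the `n`-th roots of unity.
-/

set_option autoImplicit false

open scoped Classical
open WeierstrassCurve WeierstrassCurve.Affine Finset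
open Fermat.EC Fermat.EC.Val Fermat.EC.Red Fermat.EC.Node

noncomputable section

namespace Fermat.HT.Isog

local notation "ℚbar" => AlgebraicClosure ℚ

variable {A : ValuationSubring ℚbar} {q : ℕ}

variable (A q) in
/-- Congruence modulo the place. -/
def Cg (a b : ℚbar) : Prop := Gt A q (a - b) 0

variable (h : IsPlace A q)
include h

namespace Cg

omit h in
/-- Congruence is reflexive. -/
lemma refl (a : ℚbar) : Cg A q a a := by
  rw [Cg, sub_self]; exact gt_zero

/-- Congruence is symmetric. -/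
lemma symm {a b : ℚbar} (hab : Cg A q a b) : Cg A q b a := by
  have := Gt.neg h hab
  rwa [neg_sub] at this

/-- Congruence is transitive. -/
lemma trans {a b c : ℚbar} (h1 : Cg A q a b) (h2 : Cg A q b c) : Cg A q a c := by
  have := Gt.add h h1 h2
  rwa [sub_add_sub_cancel] at this

/-- Congruences add. -/
lemma add {a b c d : ℚbar} (h1 : Cg A q a b) (h2 : Cg A q c d) : Cg A q (a + c) (b + d) := by
  have := Gt.add h h1 h2
  rwa [sub_add_sub_comm] at this

/-- Congruences subtract. -/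
lemma sub {a b c d : ℚbar} (h1 : Cg A q a b) (h2 : Cg A q c d) : Cg A q (a - c) (b - d) := by
  have := Gt.sub h h1 h2
  rwa [sub_sub_sub_comm] at this

/-- Congruences of integral elements multiply. -/
lemma mul {a b c d : ℚbar} (h1 : Cg A q a b) (h2 : Cg A q c d) (hb : Ge A q b 0)
    (hc : Ge A q c 0) : Cg A q (a * c) (b * d) := by
  have := ((Gt.mul_ge h h1 hc).mono (s := 0) (by simp)).add h
    (((hb.mul_gt h h2).mono (s := 0) (by simp)))
  rw [Cg, show a * c - b * d = (a - b) * c + b * (c - d) by ring]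
  exact this

/-- A congruence may be multiplied by an integral element. -/
lemma mul_left {a b c : ℚbar} (hc : Ge A q c 0) (h1 : Cg A q a b) : Cg A q (c * a) (c * b) := by
  have := (hc.mul_gt h h1).mono (s := 0) (by simp)
  rwa [mul_sub] at this

/-- An element congruent to an integral one is integral. -/
lemma ge {a b : ℚbar} (h1 : Cg A q a b) (hb : Ge A q b 0) : Ge A q a 0 := by
  have := (Gt.ge h1).add h hb
  rwa [sub_add_cancel] at this

/-- An element congruent to a unit is a unit. -/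
lemma is {a b : ℚbar} (h1 : Cg A q a b) (hb : Is A q b 0) : Is A q a 0 := by
  have := Is.add h hb h1
  rwa [add_sub_cancel] at this

/-- Powers of congruent integral elements are congruent. -/
lemma pow {a b : ℚbar} (h1 : Cg A q a b) (hb : Ge A q b 0) : ∀ k : ℕ, Cg A q (a ^ k) (b ^ k)
  | 0 => by rw [pow_zero, pow_zero]; exact refl 1
  | k + 1 => by
    rw [pow_succ, pow_succ]
    exact (pow h1 hb k).mul h h1 (by simpa using hb.pow h k) (h1.ge h hb)

/-- Congruences divide when the denominator is a unit. -/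
lemma div {a b c d : ℚbar} (h1 : Cg A q a b) (h2 : Cg A q c d) (hb : Ge A q b 0)
    (hd : Is A q d 0) : Cg A q (a / c) (b / d) := by
  have hc := h2.is h hd
  have := (((Gt.mul_ge h h1 hd.ge).mono (s := 0) (by simp)).sub h
    ((hb.mul_gt h h2).mono (s := 0) (by simp))).div h (hc.mul h hd)
  have e : a / c - b / d = ((a - b) * d - b * (c - d)) / (c * d) := by
    have := hc.1; have := hd.1; field_simp; ring
  rw [Cg, e]
  simpa using this

/-- Congruences sum. -/
lemma sum {ι : Type*} {s : Finset ι} {f g : ι → ℚbar} (hfg : ∀ i ∈ s, Cg A q (f i) (g i)) :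
    Cg A q (∑ i ∈ s, f i) (∑ i ∈ s, g i) := by
  rw [Cg, ← Finset.sum_sub_distrib]
  exact Gt.sum h hfg

end Cg

variable {W : Affine ℚbar} {m M : ℚ} (hN : IsNodal A q W m M)
include hN

variable {α β : ℚbar} (hαβ : α + β = -W.a₁) (hprod : α * β = -W.a₂)
include hαβ hprod

omit h hN in
/-- The tangent cone splits as `(y - α x) (y - β x)`. -/
lemma cone_factor (x y : ℚbar) : (y - α * x) * (y - β * x) = cone W x y := by
  simp only [cone]
  linear_combination (-y * x) * hαβ + x ^ 2 * hprod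

omit h hN in
/-- `α` is a root of `T² + a₁ T - a₂`. -/
lemma root_left : α ^ 2 + W.a₁ * α - W.a₂ = 0 := by linear_combination α * hαβ - hprod

/-- The tangent slope `α` is integral. -/
lemma ge_root : Ge A q α 0 := by
  by_contra hc
  rw [Ge, not_or, not_le] at hc
  set r := ord A q α
  have hI : Is A q α r := ⟨hc.1, rfl⟩
  have hr : ((2 : ℕ) : ℚ) * r < 0 := by push_cast; linarith [hc.2]
  have := ((hI.pow h 2).add h ((hN.int.a₁.mul h hI.ge).gt (by push_cast; linarith [hc.2]))).sub h
    (hN.int.a₂.gt hr)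
  rw [root_left hαβ hprod] at this
  exact this.1 rfl

omit h hN in
/-- `(α - β)² = b₂`. -/
lemma sub_sq : (α - β) ^ 2 = W.b₂ := by
  simp only [b₂]
  linear_combination (α + β - W.a₁) * hαβ - 4 * hprod

omit h hαβ hprod in
/-- The coefficients `a₃`, `a₄`, `a₆` vanish modulo the place. -/
lemma cg_small : Cg A q W.a₃ 0 ∧ Cg A q W.a₄ 0 ∧ Cg A q W.a₆ 0 := by
  have hm := hN.mpos
  have hM := hN.mM
  simp only [Cg, sub_zero]
  exact ⟨hN.a₃.gt (by linarith), hN.a₄.gt (by linarith), hN.a₆.gt hm⟩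

omit hαβ hprod in
/-- At an integral point the tangent cone is congruent to `x³`. -/
lemma cg_cone {x y : ℚbar} (he : W.Equation x y) (hx : Ge A q x 0) :
    Cg A q (cone W x y) (x ^ 3) := by
  obtain ⟨g3, g4, g6⟩ := cg_small hN
  simp only [Cg, sub_zero] at g3 g4 g6
  rw [Cg, cone_eq he, add_sub_cancel_left]
  exact g6.add h (((g4.mul_ge h hx).mono (by simp)).sub h
    ((g3.mul_ge h (ge_y h hN.int he hx)).mono (by simp)))

/-- At a point with unit `x` both `y - α x` and `y - β x` are units. -/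
lemma is_tlin {x y : ℚbar} (he : W.Equation x y) (hx : Is A q x 0) :
    Is A q (y - α * x) 0 ∧ Is A q (y - β * x) 0 := by
  have hy := ge_y h hN.int he hx.ge
  have ha := ge_root h hN hαβ hprod
  have hb := ge_root h hN (add_comm β α ▸ hαβ) (mul_comm β α ▸ hprod)
  have hc : Is A q (cone W x y) 0 := (cg_cone h hN he hx.ge).is h (by simpa using hx.pow h 3)
  rw [← cone_factor hαβ hprod] at hc
  have g1 : Ge A q (y - α * x) 0 := hy.sub h ((ha.mul h hx.ge).mono (by simp))
  have g2 : Ge A q (y - β * x) 0 := hy.sub h ((hb.mul h hx.ge).mono (by simp))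
  exact ⟨g1.is_of_not_gt fun e => hc.not_gt ((e.mul_ge h g2).mono (by simp)),
    g2.is_of_not_gt fun e => hc.not_gt ((g1.mul_gt h e).mono (by simp))⟩

/-- `(y - α x) / (y - β x)`. -/
def gv (_ : α + β = -W.a₁) (x y : ℚbar) : ℚbar := (y - α * x) / (y - β * x)

/-- At a point with unit `x` both `g` and `1 - g` are units. -/
lemma is_gv {x y : ℚbar} (he : W.Equation x y) (hx : Is A q x 0) :
    Is A q (gv hαβ x y) 0 ∧ Is A q (1 - gv hαβ x y) 0 := by
  obtain ⟨h1, h2⟩ := is_tlin h hN hαβ hprod he hx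
  have hd : Is A q (α - β) 0 := by
    have hg : Ge A q (α - β) 0 := (ge_root h hN hαβ hprod).sub h
      (ge_root h hN (add_comm β α ▸ hαβ) (mul_comm β α ▸ hprod))
    refine hg.is_of_not_gt fun e => hN.b₂.not_gt ?_
    rw [← sub_sq hαβ hprod, sq]
    exact (e.mul_ge h hg).mono (by simp)
  refine ⟨by simpa [gv] using h1.div h h2, ?_⟩
  have e : 1 - gv hαβ x y = (α - β) * x / (y - β * x) := by
    have := h2.1
    rw [gv, one_sub_div this]; ring
  rw [e]
  simpa using (hd.mul h hx).div h h2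

/-- At a point with unit `x`, `b₂ g / (1 - g)²` is congruent to `x`. -/
lemma cg_x {x y : ℚbar} (he : W.Equation x y) (hx : Is A q x 0) :
    Cg A q (W.b₂ * gv hαβ x y / (1 - gv hαβ x y) ^ 2) x := by
  obtain ⟨h1, h2⟩ := is_tlin h hN hαβ hprod he hx
  have hxx : Is A q (x ^ 2) 0 := by simpa using hx.pow h 2
  have e : W.b₂ * gv hαβ x y / (1 - gv hαβ x y) ^ 2 = cone W x y / x ^ 2 := by
    have := (is_gv h hN hαβ hprod he hx).2.1
    have := h2.1
    have := hx.1
    have hd : α - β ≠ 0 := fun e => hN.b₂.1 (by rw [← sub_sq hαβ hprod, e]; ring)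
    rw [← sub_sq hαβ hprod, ← cone_factor hαβ hprod,
      show 1 - gv hαβ x y = (α - β) * x / (y - β * x) by rw [gv, one_sub_div h2.1]; ring, gv]
    field_simp
  rw [e]
  have := (cg_cone h hN he hx.ge).div h (Cg.refl (x ^ 2)) (by simpa using hx.ge.pow h 3) hxx
  rwa [show x ^ 3 / x ^ 2 = x by have := hx.1; field_simp] at this

/-- The slope ratios of a point and its negative multiply to `1` modulo the place. -/
lemma gv_neg {x y : ℚbar} (he : W.Equation x y) (hx : Is A q x 0) :
    Cg A q (gv hαβ x y * gv hαβ x (W.negY x y)) 1 := by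
  obtain ⟨h1, h2⟩ := is_tlin h hN hαβ hprod he hx
  obtain ⟨g3, -, -⟩ := cg_small hN
  have ea : Cg A q (W.negY x y - α * x) (-(y - β * x)) := by
    rw [Cg, sub_zero] at g3
    rw [Cg, show W.negY x y - α * x - -(y - β * x) = -W.a₃ by
      simp only [negY]; linear_combination -x * hαβ]
    exact g3.neg h
  have eb : Cg A q (W.negY x y - β * x) (-(y - α * x)) := by
    rw [Cg, sub_zero] at g3
    rw [Cg, show W.negY x y - β * x - -(y - α * x) = -W.a₃ by
      simp only [negY]; linear_combination -x * hαβ]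
    exact g3.neg h
  have hn := ((ea.mul_left h h1.ge).div h (eb.mul_left h h2.ge)
    ((h1.mul h (h2.neg h)).ge.mono (by simp)) (by simpa using h2.mul h (h1.neg h)))
  have e1 : gv hαβ x y * gv hαβ x (W.negY x y) =
      (y - α * x) * (W.negY x y - α * x) / ((y - β * x) * (W.negY x y - β * x)) := by
    rw [gv, gv, div_mul_div_comm]
  have e2 : (y - α * x) * -(y - β * x) / ((y - β * x) * -(y - α * x)) = 1 := by
    rw [mul_neg, mul_neg, mul_comm, div_self (neg_ne_zero.mpr (mul_ne_zero h2.1 h1.1))]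
  rw [e2] at hn
  rwa [e1]

/-- The slope ratios of three collinear points multiply to `1` modulo the place. -/
lemma gv_collinear {l ν x₁ y₁ x₂ y₂ x₃ y₃ : ℚbar} (hc : Collinear3 W l ν x₁ y₁ x₂ y₂ x₃ y₃)
    (e₁ : W.Equation x₁ y₁) (e₂ : W.Equation x₂ y₂) (e₃ : W.Equation x₃ y₃)
    (i₁ : Is A q x₁ 0) (i₂ : Is A q x₂ 0) (i₃ : Is A q x₃ 0) :
    Cg A q (gv hαβ x₁ y₁ * gv hαβ x₂ y₂ * gv hαβ x₃ y₃) 1 := by
  obtain ⟨g3, g4, g6⟩ := cg_small hN
  simp only [Cg, sub_zero] at g3 g4 g6
  -- slope and intercept of the line are integral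
  have hl : Ge A q l 0 := by
    by_contra hl
    exact not_ge_third h hN.int hc.e₁ hl i₁.ge i₂.ge i₃.ge
  have hν : Ge A q ν 0 := by
    rw [show ν = y₁ - l * x₁ by linear_combination -hc.line₁]
    exact (ge_y h hN.int e₁ i₁.ge).sub h ((hl.mul h i₁.ge).mono (by simp))
  -- for a root `γ`, the product of the `y - γ x` is `ν x₁ x₂ x₃` modulo the place
  have key : ∀ {γ : ℚbar}, Ge A q γ 0 → γ ^ 2 + W.a₁ * γ - W.a₂ = 0 →
      Cg A q ((y₁ - γ * x₁) * (y₂ - γ * x₂) * (y₃ - γ * x₃)) (ν * (x₁ * x₂ * x₃)) := by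
    intro γ hγ hroot
    have hcg : Ge A q (l - γ) 0 := hl.sub h hγ
    rw [Cg, show (y₁ - γ * x₁) * (y₂ - γ * x₂) * (y₃ - γ * x₃) - ν * (x₁ * x₂ * x₃)
      = (l - γ) ^ 3 * (W.a₃ * ν - W.a₆) + (l - γ) ^ 2 * ν * (W.a₄ - W.a₃ * l)
        - ν * (W.a₃ * ν - W.a₆) by
      rw [hc.line₁, hc.line₂, hc.line₃]
      linear_combination ((l - γ) ^ 3 - ν) * hc.e₃ + (l - γ) ^ 2 * ν * hc.e₂
        + (l - γ) * ν ^ 2 * hc.e₁ + (l - γ) * ν ^ 2 * hroot]
    have s1 : Gt A q (W.a₃ * ν - W.a₆) 0 := ((g3.mul_ge h hν).mono (by simp)).sub h g6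
    have s2 : Gt A q (W.a₄ - W.a₃ * l) 0 := g4.sub h ((g3.mul_ge h hl).mono (by simp))
    exact ((((hcg.pow h 3).mul_gt h s1).mono (by simp)).add h
      ((((hcg.pow h 2).mul h hν).mul_gt h s2).mono (by simp))).sub h
        ((hν.mul_gt h s1).mono (by simp))
  have ka := key (ge_root h hN hαβ hprod) (root_left hαβ hprod)
  have kb := key (ge_root h hN (add_comm β α ▸ hαβ) (mul_comm β α ▸ hprod))
    (root_left (add_comm β α ▸ hαβ) (mul_comm β α ▸ hprod))
  obtain ⟨a1, b1⟩ := is_tlin h hN hαβ hprod e₁ i₁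
  obtain ⟨a2, b2⟩ := is_tlin h hN hαβ hprod e₂ i₂
  obtain ⟨a3, b3⟩ := is_tlin h hN hαβ hprod e₃ i₃
  have hνP : Is A q (ν * (x₁ * x₂ * x₃)) 0 :=
    kb.symm h |>.is h (by simpa using (b1.mul h b2).mul h b3)
  -- divide the two congruences
  have := ka.div h kb hνP.ge hνP
  rw [div_self hνP.1] at this
  rwa [gv, gv, gv, div_mul_div_comm, div_mul_div_comm]

end Fermat.HT.Isog
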