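import Fermat.Agent.HT.Isog.Complex
import Fermat.Agent.HT.Isog.Functorial
import Fermat.Agent.EC.Semistable
import Fermat.Agent.EC.Sparse
import Fermat.Agent.CFT.Density.Places
import Mathlib.Analysis.Complex.Polynomial.Basic

/-!
# The quotient of a curve over `ℤ` by a Galois stable subgroup of prime order

The main result is `exists_isogeny`, the isogeny with its target.
-/

set_option autoImplicit false

open scoped Classical
open WeierstrassCurve WeierstrassCurve.Affine Finset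
open Fermat.EC Fermat.EC.Val Fermat.EC.Red
open scoped WeierstrassCurve.Affine

noncomputable section

namespace Fermat.HT.Isog

local notation "ℚbar" => AlgebraicClosure ℚ
local notation "Γℚ" => (AlgebraicClosure ℚ ≃ₐ[ℚ] AlgebraicClosure ℚ)

/-- Affine points with equal coordinates are equal. -/
lemma exists_some_congr {K : Type*} [Field K] {E : Affine K} {x x' y y' : K} (ex : x = x')
    (ey : y = y') (h : E.Nonsingular x y) :
    ∃ h' : E.Nonsingular x' y', Point.some x y h = Point.some x' y' h' := by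
  subst ex ey; exact ⟨h, rfl⟩

/-- A rational number integral away from `n` has a power of `n` as denominator. -/
lemma exists_pow_mul_int {n : ℕ} {r : ℚ}
    (hr : ∀ (q : ℕ) (A : ValuationSubring ℚbar), IsPlace A q → q ≠ n → Ge A q (r : ℚbar) 0) :
    ∃ k : ℕ, ∀ m, k ≤ m → ∃ z : ℤ, (z : ℚ) = (n : ℚ) ^ m * r := by
  have hden : r.den = n ^ r.den.primeFactorsList.length := by
    refine Nat.eq_prime_pow_of_unique_prime_dvd r.den_nz fun {q} hq hqd => ?_
    by_contra hne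
    obtain ⟨A, hA⟩ := Fermat.CFT.exists_place hq
    have h : IsPlace A q := ⟨hq, hA⟩
    have hnum : ¬ (q : ℤ) ∣ r.num := fun hd => by
      have h1 : q ∣ r.num.natAbs := Int.natCast_dvd.mp hd
      have := Nat.dvd_gcd h1 hqd
      rw [r.reduced.gcd_eq_one] at this
      exact hq.one_lt.ne' (Nat.dvd_one.mp this)
    apply (is_intCast (A := A) h hnum).not_gt
    obtain ⟨c, hc⟩ := hqd
    have e : ((r.num : ℤ) : ℚbar) = (r : ℚbar) * ((r.den : ℕ) : ℚbar) := by
      have := r.mul_den_eq_num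
      exact_mod_cast this.symm
    rw [e, hc]
    have hg : Gt A q ((q : ℚbar)) 0 := (nonunit_iff_gt h _).mp hA
    have := (hr q A h hne).mul_gt h (hg.mul_ge h (ge_natCast (A := A) h c))
    push_cast
    simpa using this
  refine ⟨r.den.primeFactorsList.length,
    fun m hm => ⟨(n ^ (m - r.den.primeFactorsList.length) : ℕ) * r.num, ?_⟩⟩
  push_cast
  conv_rhs => rw [show m = (m - r.den.primeFactorsList.length) + r.den.primeFactorsList.length by
    omega, pow_add, mul_assoc]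
  congr 1
  rw [show ((n : ℚ) ^ r.den.primeFactorsList.length) = ((r.den : ℕ) : ℚ) by
    rw [hden]; push_cast; rw [← hden], mul_comm, Rat.mul_den_eq_num]

section

variable {W : WeierstrassCurve ℤ} {n : ℕ} {Q : (overQbar W).Point}

/-- A stable cyclic subgroup is mapped onto itself by every automorphism. -/
lemma kerSet_smul (hn : 0 < n) (hQ : addOrderOf Q = n)
    (hstab : ∀ σ : Γℚ, ∃ k : ℕ, σ • Q = k • Q) (σ : Γℚ) :
    kerSet (overQbar W) (σ • Q) n = kerSet (overQbar W) Q n := by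
  have hσ : addOrderOf (σ • Q) = n := by
    rw [← hQ]; exact addOrderOf_injective (Point.map σ.toAlgHom) (Point.map_injective _) Q
  refine eq_of_subset_of_card_le ?_ ?_
  · intro R hR
    obtain ⟨i, -, rfl⟩ := mem_kerSet.mp hR
    obtain ⟨k, hk⟩ := hstab σ
    refine mem_kerSet.mpr ⟨(i * k) % n, Nat.mod_lt _ hn, ?_⟩
    rw [hk, ← mul_nsmul', ← hQ, mod_addOrderOf_nsmul]
  · rw [kerSet, kerSet, card_image_of_injOn (kerSet_injOn hQ),
      card_image_of_injOn (kerSet_injOn hσ)]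

/-- For a stable subgroup, `veluT` and `veluU` are fixed by every automorphism. -/
lemma veluT_fixed (hn : 0 < n) (hQ : addOrderOf Q = n)
    (hstab : ∀ σ : Γℚ, ∃ k : ℕ, σ • Q = k • Q) (σ : Γℚ) :
    σ (veluT (overQbar W) Q n) = veluT (overQbar W) Q n ∧
      σ (veluU (overQbar W) Q n) = veluU (overQbar W) Q n := by
  have h1 := veluT_map (V := W.map (Int.castRingHom ℚ)) σ.toAlgHom Q n
  have h2 := veluU_map (V := W.map (Int.castRingHom ℚ)) σ.toAlgHom Q n
  have e := kerSet_smul hn hQ hstab σ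
  constructor
  · refine h1.symm.trans ?_
    change veluT (overQbar W) (σ • Q) n = _
    rw [veluT, veluT, e]
  · refine h2.symm.trans ?_
    change veluU (overQbar W) (σ • Q) n = _
    rw [veluU, veluU, e]

/-- An even function summed over the nonzero multiples of `Q` gives twice its sum over `i • Q`,
`1 ≤ i ≤ m`, for `n = 2 m + 1`. -/
lemma sum_erase_even (hQ : addOrderOf Q = n) {m : ℕ} (hm : n = 2 * m + 1) {M : Type*}
    [AddCommMonoid M] (f : (overQbar W).Point → M) (hf : ∀ R, f (-R) = f R) :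
    ∑ R ∈ (kerSet (overQbar W) Q n).erase 0, f R = 2 • ∑ i ∈ Finset.Ico 1 (m + 1), f (i • Q) := by
  rw [sum_kerSet_erase hQ, ← sum_Ico_consecutive (fun i => f (i • Q)) (show 1 ≤ m + 1 by omega)
    (show m + 1 ≤ n by omega), two_nsmul]
  congr 1
  refine sum_nbij' (fun i => n - i) (fun i => n - i) ?_ ?_ ?_ ?_ ?_
  · intro i hi; simp at hi ⊢; omega
  · intro i hi; simp at hi ⊢; omega
  · intro i hi; simp at hi ⊢; omega
  · intro i hi; simp at hi ⊢; omega
  · intro i hi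
    simp at hi
    rw [← hf (i • Q)]
    congr 1
    rw [eq_comm, eq_neg_iff_add_eq_zero, ← add_nsmul, Nat.sub_add_cancel (by omega : i ≤ n), ← hQ,
      addOrderOf_nsmul_eq_zero]

/-- `xOf` is even. -/
lemma xOf_neg {K : Type*} [Field K] [DecidableEq K] {E : Affine K} :
    ∀ R : E.Point, xOf E (-R) = xOf E R
  | .zero => rfl
  | .some _ _ _ => rfl

/-- Points killed by a prime `n` have integral `x` at places over `q ≠ n`. -/
lemma ge_xOf {q : ℕ} {A : ValuationSubring ℚbar} (h : IsPlace A q) (hqn : q ≠ n) (hn : n.Prime)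
    {R : (overQbar W).Point} (hR : n • R = 0) : Ge A q (xOf (overQbar W) R) 0 := by
  rcases R with _ | ⟨x, y, hns⟩
  · exact ge_zero
  by_contra hx
  exact Point.some_ne_zero hns (eq_zero_of_nsmul_eq_zero h (integralAt_overQbar W h)
    (P := .some x y hns) hx
    (fun hd => hqn ((Nat.prime_dvd_prime_iff_eq h.1 hn).mp hd)) hR)

/-- Vélu's invariants are integral away from `n`. -/
lemma ge_velu (hn : n.Prime) (h2 : n ≠ 2) (hQ : addOrderOf Q = n) {q : ℕ}
    {A : ValuationSubring ℚbar} (h : IsPlace A q) (hqn : q ≠ n) :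
    Ge A q (veluT (overQbar W) Q n) 0 ∧ Ge A q (veluU (overQbar W) Q n) 0 := by
  obtain ⟨m, hm⟩ := hn.odd_of_ne_two h2
  have hx : ∀ i : ℕ, Ge A q (xOf (overQbar W) (i • Q)) 0 := fun i => ge_xOf h hqn hn (by
    rw [← mul_nsmul', mul_comm, mul_nsmul', ← hQ, addOrderOf_nsmul_eq_zero, nsmul_zero])
  have hb2 : Ge A q (overQbar W).b₂ 0 := by
    simpa [overQbar, WeierstrassCurve.baseChange] using ge_intCast (A := A) h W.b₂
  have hb4 : Ge A q (overQbar W).b₄ 0 := by
    simpa [overQbar, WeierstrassCurve.baseChange] using ge_intCast (A := A) h W.b₄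
  have hb6 : Ge A q (overQbar W).b₆ 0 := by
    simpa [overQbar, WeierstrassCurve.baseChange] using ge_intCast (A := A) h W.b₆
  have num : ∀ k : ℕ, Ge A q (k : ℚbar) 0 := fun k => ge_natCast h k
  constructor
  · rw [veluT, sum_erase_even hQ hm _ (fun R => by rw [xOf_neg]), two_nsmul, ← two_mul,
      mul_div_cancel_left₀ _ (two_ne_zero' ℚbar)]
    exact Ge.sum h fun i _ => ((((num 6).mul h ((hx i).pow h 2)).mono (by simp)).add h
      ((hb2.mul h (hx i)).mono (by simp))).add h hb4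
  · rw [veluU, sum_erase_even hQ hm _ (fun R => by rw [xOf_neg]), two_nsmul, ← two_mul,
      mul_div_cancel_left₀ _ (two_ne_zero' ℚbar)]
    exact Ge.sum h fun i _ => (((((num 10).mul h ((hx i).pow h 3)).mono (by simp)).add h
      ((((num 2).mul h hb2).mul h ((hx i).pow h 2)).mono (by simp))).add h
      ((((num 3).mul h hb4).mul h (hx i)).mono (by simp))).add h hb6

/-- A power of `n` clears the denominators of Vélu's sums. -/
private lemma exists_velu_cleared (hn : n.Prime) (h2 : n ≠ 2) (hQ : addOrderOf Q = n)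
    (hstab : ∀ σ : Γℚ, ∃ k : ℕ, σ • Q = k • Q) :
    ∃ (m : ℕ) (T T6 U6 : ℤ),
      (T : ℚbar) = ((n : ℚbar) ^ m) ^ 4 * veluT (overQbar W) Q n ∧
      (T6 : ℚbar) = ((n : ℚbar) ^ m) ^ 6 * veluT (overQbar W) Q n ∧
      (U6 : ℚbar) = ((n : ℚbar) ^ m) ^ 6 * veluU (overQbar W) Q n := by
  obtain ⟨t, ht⟩ := exists_rat_of_fixed fun σ => (veluT_fixed hn.pos hQ hstab σ).1
  obtain ⟨u, hu⟩ := exists_rat_of_fixed fun σ => (veluT_fixed hn.pos hQ hstab σ).2
  obtain ⟨k₁, hk₁⟩ := exists_pow_mul_int (n := n) (r := t) fun q A h hq =>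
    ht ▸ (ge_velu hn h2 hQ h hq).1
  obtain ⟨k₂, hk₂⟩ := exists_pow_mul_int (n := n) (r := u) fun q A h hq =>
    hu ▸ (ge_velu hn h2 hQ h hq).2
  set m := max k₁ k₂
  obtain ⟨T, hT⟩ := hk₁ (4 * m) (by omega)
  obtain ⟨T6, hT6⟩ := hk₁ (6 * m) (by omega)
  obtain ⟨U6, hU6⟩ := hk₂ (6 * m) (by omega)
  refine ⟨m, T, T6, U6, ?_, ?_, ?_⟩
  · rw [← ht, ← Rat.cast_intCast, hT]; push_cast; ring
  · rw [← ht, ← Rat.cast_intCast, hT6]; push_cast; ring
  · rw [← hu, ← Rat.cast_intCast, hU6]; push_cast; ring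

variable (W) in
/-- Vélu's curve scaled by `N`, with the scaled sums as parameters. -/
private def veluModel (N : ℕ) (T T6 U6 : ℤ) : WeierstrassCurve ℤ :=
  ⟨N * W.a₁, (N : ℤ) ^ 2 * W.a₂, (N : ℤ) ^ 3 * W.a₃,
    (N : ℤ) ^ 4 * W.a₄ - 5 * T, (N : ℤ) ^ 6 * W.a₆ - W.b₂ * T6 - 7 * U6⟩

/-- The invariants of the scaled Vélu curve. -/
private lemma c_veluModel {N : ℕ} {T T6 U6 : ℤ} {vt vu : ℚbar}
    (hT : (T : ℚbar) = (N : ℚbar) ^ 4 * vt) (hT6 : (T6 : ℚbar) = (N : ℚbar) ^ 6 * vt)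
    (hU6 : (U6 : ℚbar) = (N : ℚbar) ^ 6 * vu) :
    ((veluModel W N T T6 U6).c₄ : ℚbar) = (N : ℚbar) ^ 4 * (W.c₄ + 240 * vt) ∧
      ((veluModel W N T T6 U6).c₆ : ℚbar) =
        (N : ℚbar) ^ 6 * (W.c₆ + 504 * W.b₂ * vt + 6048 * vu) := by
  simp only [veluModel, c₄, c₆, b₂, b₄, b₆]
  push_cast
  rw [hT, hT6, hU6]
  constructor <;> ring

/-- Vélu's isogeny, computed over `ℂ`, descends to the scaled curve over `ℚbar`. -/
private lemma exists_velu_hom (hΔ : W.Δ ≠ 0) (hn : n.Prime) (hQ : addOrderOf Q = n) {N : ℕ}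
    (hN : N ≠ 0) {T T6 U6 : ℤ} (hT : (T : ℚbar) = (N : ℚbar) ^ 4 * veluT (overQbar W) Q n)
    (hT6 : (T6 : ℚbar) = (N : ℚbar) ^ 6 * veluT (overQbar W) Q n)
    (hU6 : (U6 : ℚbar) = (N : ℚbar) ^ 6 * veluU (overQbar W) Q n) :
    (veluModel W N T T6 U6).Δ ≠ 0 ∧
      ∃ φ : (overQbar W).Point →+ (overQbar (veluModel W N T T6 U6)).Point,
        (∀ P, φ P = 0 ↔ P ∈ kerSet (overQbar W) Q n) ∧
        ∀ P, P ∉ kerSet (overQbar W) Q n → ∃ h, φ P = Point.some
          ((N : ℚbar) ^ 2 * veluX (overQbar W) Q n P)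
          ((N : ℚbar) ^ 3 * veluY (overQbar W) Q n P) h := by
  set W' := veluModel W N T T6 U6 with hW'
  set V := W.map (Int.castRingHom ℚ) with hV
  -- Over `ℂ` Vélu's map is a homomorphism; compose it with the scaling by `N`.
  let ι : ℚbar →ₐ[ℚ] ℂ := IsAlgClosed.lift
  set Qc : (V⁄ℂ : Affine ℂ).Point := Point.map ι Q with hQc
  have hQc' : addOrderOf Qc = n := (addOrderOf_map ι Q).trans hQ
  obtain ⟨L, hL⟩ := exists_uniformizes (V⁄ℂ : Affine ℂ) (by
    simpa [hV, WeierstrassCurve.baseChange] using hΔ)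
  obtain ⟨hΔv, hnsv, haddv⟩ := velu_complex hL hn hQc'
  have hNC : ((N : ℕ) : ℂ) ≠ 0 := Nat.cast_ne_zero.mpr hN
  let C : VariableChange ℂ := ⟨(Units.mk0 _ hNC)⁻¹, 0, 0, 0⟩
  have hC : changed C (veluCurve (V⁄ℂ : Affine ℂ) Qc n) = (W'.map (Int.castRingHom ℚ))⁄ℂ := by
    have f1 : (T : ℂ) = (N : ℂ) ^ 4 * veluT (V⁄ℂ : Affine ℂ) Qc n := by
      rw [hQc, veluT_map, ← map_intCast ι, hT, map_mul, map_pow, map_natCast]
    have f2 : (T6 : ℂ) = (N : ℂ) ^ 6 * veluT (V⁄ℂ : Affine ℂ) Qc n := by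
      rw [hQc, veluT_map, ← map_intCast ι, hT6, map_mul, map_pow, map_natCast]
    have f3 : (U6 : ℂ) = (N : ℂ) ^ 6 * veluU (V⁄ℂ : Affine ℂ) Qc n := by
      rw [hQc, veluU_map, ← map_intCast ι, hU6, map_mul, map_pow, map_natCast]
    obtain ⟨e1, he1⟩ : ∃ x, veluT (V⁄ℂ : Affine ℂ) Qc n = x := ⟨_, rfl⟩
    obtain ⟨e2, he2⟩ : ∃ x, veluU (V⁄ℂ : Affine ℂ) Qc n = x := ⟨_, rfl⟩
    rw [he1] at f1 f2
    rw [he2] at f3
    ext <;>
      simp [changed, C, veluCurve, W', veluModel, hV, WeierstrassCurve.baseChange, he1, he2,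
        f1, f2, f3,
        variableChange_a₁, variableChange_a₂, variableChange_a₃, variableChange_a₄,
        variableChange_a₆] <;>
      ring
  let Φ : (V⁄ℂ : Affine ℂ).Point →+ ((W'.map (Int.castRingHom ℚ))⁄ℂ : Affine ℂ).Point :=
    (castHom hC).comp ((pointHom C _).comp
      (AddMonoidHom.mk' (veluMap (V⁄ℂ : Affine ℂ) Qc n) haddv))
  -- Its coordinates at algebraic points are the images of `X` and `Y`.
  set X : (overQbar W).Point → ℚbar := fun P => (N : ℚbar) ^ 2 * veluX (overQbar W) Q n P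
  set Y : (overQbar W).Point → ℚbar := fun P => (N : ℚbar) ^ 3 * veluY (overQbar W) Q n P
  have hΦ0 : ∀ P : (overQbar W).Point, P ∈ kerSet (overQbar W) Q n → Φ (Point.map ι P) = 0 := by
    intro P hP
    simp only [Φ, AddMonoidHom.comp_apply, AddMonoidHom.mk'_apply, veluMap]
    rw [dif_neg fun h => h.1 ((mem_kerSet_map ι Q n P).mpr hP), map_zero, map_zero]
  have hΦ1 : ∀ P : (overQbar W).Point, P ∉ kerSet (overQbar W) Q n →
      ∃ h, Φ (Point.map ι P) = Point.some (ι (X P)) (ι (Y P)) h := by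
    intro P hP
    have hP' : Point.map ι P ∉ kerSet (V⁄ℂ : Affine ℂ) Qc n :=
      fun h => hP ((mem_kerSet_map ι Q n P).mp h)
    simp only [Φ, AddMonoidHom.comp_apply, AddMonoidHom.mk'_apply, veluMap]
    rw [dif_pos ⟨hP', hnsv _ hP'⟩, pointHom_some, castHom_some]
    have ex : newX C (veluX (V⁄ℂ : Affine ℂ) Qc n (Point.map ι P)) = ι (X P) := by
      simp only [hQc, veluX_map, newX, C, X, sub_zero]
      simp [div_eq_mul_inv, mul_comm]
      exact Or.inl rfl
    have ey : newY C (veluX (V⁄ℂ : Affine ℂ) Qc n (Point.map ι P))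
        (veluY (V⁄ℂ : Affine ℂ) Qc n (Point.map ι P)) = ι (Y P) := by
      simp only [hQc, veluY_map, newY, C, Y, sub_zero, zero_mul]
      simp [div_eq_mul_inv, mul_comm]
      exact Or.inl rfl
    exact exists_some_congr ex ey _
  have hns : ∀ P : (overQbar W).Point, P ∉ kerSet (overQbar W) Q n →
      (overQbar W').Nonsingular (X P) (Y P) := fun P hP =>
    ((W'.map (Int.castRingHom ℚ)).toAffine.baseChange_nonsingular ι.injective _ _).mp
      (hΦ1 P hP).choose
  -- So it restricts to a homomorphism over `ℚbar`.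
  let φ₀ : (overQbar W).Point → (overQbar W').Point := fun P =>
    if hP : P ∈ kerSet (overQbar W) Q n then 0 else .some _ _ (hns P hP)
  have hkey : ∀ P, Point.map ι (φ₀ P) = Φ (Point.map ι P) := by
    intro P
    by_cases hP : P ∈ kerSet (overQbar W) Q n
    · simp only [φ₀, dif_pos hP]
      rw [hΦ0 P hP]; rfl
    · simp only [φ₀, dif_neg hP]
      obtain ⟨h, e⟩ := hΦ1 P hP
      rw [e]; rfl
  let φ : (overQbar W).Point →+ (overQbar W').Point := AddMonoidHom.mk' φ₀ fun P P' =>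
    Point.map_injective ι (by rw [hkey, map_add, map_add, map_add, hkey, hkey])
  refine ⟨?_, φ, fun P => ?_, fun P hP => ⟨hns P hP, by simp [φ, φ₀, hP, X, Y]⟩⟩
  · intro h
    apply hΔv
    have hΔ' := variableChange_Δ (veluCurve (V⁄ℂ : Affine ℂ) Qc n) C
    rw [show (C • (veluCurve (V⁄ℂ : Affine ℂ) Qc n : WeierstrassCurve ℂ)) =
      changed C (veluCurve (V⁄ℂ : Affine ℂ) Qc n) from rfl, hC] at hΔ'
    simpa [WeierstrassCurve.baseChange, h, C, hN] using hΔ'.symm
  · by_cases hP : P ∈ kerSet (overQbar W) Q n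
    · simp [φ, φ₀, hP]
    · simp [φ, φ₀, hP]

/-- A homomorphism given by Vélu's coordinates off a Galois stable kernel commutes with Galois. -/
private lemma velu_hom_smul (hn : 0 < n) (hQ : addOrderOf Q = n)
    (hstab : ∀ σ : Γℚ, ∃ k : ℕ, σ • Q = k • Q) {W' : WeierstrassCurve ℤ} {N : ℕ}
    (φ : (overQbar W).Point →+ (overQbar W').Point)
    (hker : ∀ P, φ P = 0 ↔ P ∈ kerSet (overQbar W) Q n)
    (hφ : ∀ P, P ∉ kerSet (overQbar W) Q n → ∃ h, φ P = Point.some
      ((N : ℚbar) ^ 2 * veluX (overQbar W) Q n P) ((N : ℚbar) ^ 3 * veluY (overQbar W) Q n P) h)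
    (σ : Γℚ) (P : (overQbar W).Point) : φ (σ • P) = σ • φ P := by
  have e := kerSet_smul hn hQ hstab σ
  have hmem : σ • P ∈ kerSet (overQbar W) Q n ↔ P ∈ kerSet (overQbar W) Q n := by
    conv_lhs => rw [← e]
    exact mem_kerSet_map σ.toAlgHom Q n P
  by_cases hP : P ∈ kerSet (overQbar W) Q n
  · rw [(hker _).mpr (hmem.mpr hP), (hker _).mpr hP, gal_smul_zero]
  · have hx : veluX (overQbar W) Q n (σ • P) = σ (veluX (overQbar W) Q n P) := by
      refine Eq.trans ?_ (veluX_map σ.toAlgHom Q n P)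
      change _ = veluX (overQbar W) (σ • Q) n (σ • P)
      simp only [veluX, e]
    have hy : veluY (overQbar W) Q n (σ • P) = σ (veluY (overQbar W) Q n P) := by
      refine Eq.trans ?_ (veluY_map σ.toAlgHom Q n P)
      change _ = veluY (overQbar W) (σ • Q) n (σ • P)
      simp only [veluY, veluX, e]
    have hP' := fun h => hP (hmem.mp h)
    obtain ⟨h1, e1⟩ := hφ P hP
    obtain ⟨h2, e2⟩ := hφ _ hP'
    obtain ⟨h', e'⟩ := smul_some W' σ h1
    rw [e1, e2, e', Point.some.injEq]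
    simp [hx, hy]

variable (W) in
/-- An isogeny out of `W` together with its target. -/
theorem exists_isogeny (hΔ : W.Δ ≠ 0) (hn : n.Prime) (h2 : n ≠ 2) (hQ : addOrderOf Q = n)
    (hstab : ∀ σ : Γℚ, ∃ k : ℕ, σ • Q = k • Q) :
    ∃ (W' : WeierstrassCurve ℤ) (φ : (overQbar W).Point →+ (overQbar W').Point) (m : ℕ),
      W'.Δ ≠ 0 ∧ (∀ P, φ P = 0 ↔ ∃ k : ℕ, k • Q = P) ∧
      (∀ (σ : Γℚ) (P : (overQbar W).Point), φ (σ • P) = σ • φ P) ∧
      (W'.c₄ : ℚbar) = ((n : ℚbar) ^ m) ^ 4 * (W.c₄ + 240 * veluT (overQbar W) Q n) ∧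
      (W'.c₆ : ℚbar) = ((n : ℚbar) ^ m) ^ 6 *
        (W.c₆ + 504 * W.b₂ * veluT (overQbar W) Q n + 6048 * veluU (overQbar W) Q n) := by
  obtain ⟨m, T, T6, U6, hT, hT6, hU6⟩ := exists_velu_cleared hn h2 hQ hstab
  rw [← Nat.cast_pow] at hT hT6 hU6
  obtain ⟨hΔ', φ, hker, hφ⟩ :=
    exists_velu_hom hΔ hn hQ (pow_ne_zero m hn.ne_zero) hT hT6 hU6
  refine ⟨veluModel W (n ^ m) T T6 U6, φ, m, hΔ', fun P => ?_,
    velu_hom_smul hn.pos hQ hstab φ hker hφ, ?_⟩
  · rw [hker, mem_kerSet]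
    constructor
    · rintro ⟨i, -, hi⟩; exact ⟨i, hi⟩
    · rintro ⟨k, hk⟩
      exact ⟨k % n, Nat.mod_lt _ hn.pos, by rw [← hk, ← hQ, mod_addOrderOf_nsmul]⟩
  · simpa only [Nat.cast_pow] using c_veluModel hT hT6 hU6

end

end Fermat.HT.Isog
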