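import Fermat.Agent.HT.Isog.Node

/-!
# The quotient isogeny preserves multiplicative reduction

For a point of odd prime order `n ≠ q` the Vélu invariants are congruent to those of the curve up to
a unit, so `q` does not divide the new `c₄`; that `q` divides the new discriminant is proved for
`q ≥ 5` (`Isog/Semistable.isog_mult`).
-/

set_option autoImplicit false

open scoped Classical
open WeierstrassCurve WeierstrassCurve.Affine Finset
open Fermat.EC Fermat.EC.Val Fermat.EC.Red Fermat.EC.Node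

noncomputable section

namespace Fermat.HT.Isog

local notation "ℚbar" => AlgebraicClosure ℚ

variable {A : ValuationSubring ℚbar} {q : ℕ}

/-- The summand of `c₄`. -/
def s₄ {K : Type*} [Field K] (E : Affine K) (x : K) : K := 6 * x ^ 2 + E.b₂ * x + E.b₄

/-- The summand of `c₆`. -/
def s₆ {K : Type*} [Field K] (E : Affine K) (x : K) : K :=
  120 * x ^ 3 + 30 * E.b₂ * x ^ 2 + (36 * E.b₄ + E.b₂ ^ 2) * x + 12 * E.b₆ + E.b₂ * E.b₄

variable (h : IsPlace A q) {W : Affine ℚbar} {m M : ℚ} (hN : IsNodal A q W m M)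
include h hN

/-- At a node, `b₄` and `b₆` vanish and `c₄ ≡ b₂²`, `c₆ ≡ -b₂³` modulo the place. -/
lemma cg_invariants :
    Cg A q W.b₄ 0 ∧ Cg A q W.b₆ 0 ∧ Cg A q W.c₄ (W.b₂ ^ 2) ∧ Cg A q W.c₆ (-(W.b₂ ^ 3)) := by
  have hm := hN.mpos
  have hM := hN.mM
  have b4 : Gt A q W.b₄ 0 := (ge_b₄ h hN).gt (by linarith)
  have b6 : Gt A q W.b₆ 0 := (ge_b₆ h hN).gt hm
  have num : ∀ k : ℕ, Ge A q (k : ℚbar) 0 := fun k => ge_natCast h k
  refine ⟨by rwa [Cg, sub_zero], by rwa [Cg, sub_zero], ?_, ?_⟩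
  · rw [Cg, c₄, sub_sub_cancel_left]
    exact (((num 24).mul_gt h b4).mono (s := 0) (by simp)).neg h
  · rw [Cg, c₆, show -W.b₂ ^ 3 + 36 * W.b₂ * W.b₄ - 216 * W.b₆ - -(W.b₂ ^ 3)
      = 36 * W.b₂ * W.b₄ - 216 * W.b₆ by ring]
    exact ((((num 36).mul h hN.b₂.ge).mul_gt h b4).mono (s := 0) (by simp)).sub h
      (((num 216).mul_gt h b6).mono (by simp))

/-- The sums `s₄`, `s₆` of a point congruent to `(x, y)` modulo the place, in terms of `b₂` and
`y`. -/
lemma cg_s {x y : ℚbar} (hxy : Cg A q x y) (hy : Ge A q y 0) :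
    Cg A q (s₄ W x) (6 * y ^ 2 + W.b₂ * y) ∧
      Cg A q (s₆ W x) (120 * y ^ 3 + 30 * W.b₂ * y ^ 2 + W.b₂ ^ 2 * y) := by
  obtain ⟨b4, b6, -, -⟩ := cg_invariants h hN
  have num : ∀ k : ℕ, Ge A q (k : ℚbar) 0 := fun k => ge_natCast h k
  have hx := hxy.ge h hy
  have hb := hN.b₂.ge
  constructor
  · have := ((((hxy.pow h hy 2).mul_left h (num 6)).add h (hxy.mul_left h hb))).add h b4
    simpa [s₄] using this
  · have t1 := (hxy.pow h hy 3).mul_left h (num 120)
    have t2 := (hxy.pow h hy 2).mul_left h ((num 30).mul h hb |>.mono (s := 0) (by simp))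
    have t3 : Cg A q ((36 * W.b₄ + W.b₂ ^ 2) * x) ((36 * 0 + W.b₂ ^ 2) * y) :=
      ((b4.mul_left h (num 36)).add h (Cg.refl _)).mul h hxy
        (by simpa using hb.pow h 2) hx
    have t4 := ((b6.mul_left h (num 12)).add h (b4.mul_left h hb))
    have := ((t1.add h t2).add h t3).add h t4
    simp only [Nat.cast_ofNat] at this
    simpa [s₆, add_assoc] using this

/-- A torsion point of `E₀` of order prime to `q` has unit abscissa. -/
lemma exists_unit_x {n : ℕ} (hqn : ¬ q ∣ n) {R : W.Point} (hR : n • R = 0) (hR0 : R ≠ 0)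
    (hE : InE0 A q R) : ∃ x y hns, R = Point.some x y hns ∧ Is A q x 0 := by
  rcases R with _ | ⟨x, y, hns⟩
  · exact absurd rfl hR0
  refine ⟨x, y, hns, rfl, ?_⟩
  have hx : Ge A q x 0 := by
    by_contra hx
    exact Point.some_ne_zero hns (eq_zero_of_nsmul_eq_zero h hN.int (P := .some x y hns) hx hqn hR)
  refine hx.is_of_not_gt fun gx => hE (singRed_of_gt h hN gx ?_)
  have hy := ge_y h hN.int hns.1 hx
  obtain ⟨g3, g4, g6⟩ := cg_small hN
  simp only [Cg, sub_zero] at g3 g4 g6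
  by_contra gy
  apply ((hy.is_of_not_gt gy).pow h 2).not_gt
  have e : y ^ 2 = x * (x ^ 2 + W.a₂ * x + W.a₄ - W.a₁ * y) + (W.a₆ - W.a₃ * y) := by
    linear_combination (equation_iff ..).mp hns.1
  rw [e, mul_zero]
  have c : Ge A q (x ^ 2 + W.a₂ * x + W.a₄ - W.a₁ * y) 0 :=
    ((((hx.pow h 2).mono (by simp)).add h ((hN.int.a₂.mul h hx).mono (by simp))).add h
      hN.int.a₄).sub h ((hN.int.a₁.mul h hy).mono (by simp))
  exact ((gx.mul_ge h c).mono (by simp)).add h (g6.sub h ((g3.mul_ge h hy).mono (by simp)))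

/-- Outside `E₀` the two power sums are small. -/
private lemma sums_mod_of_not_inE0 {n : ℕ} (hn : n.Prime) {R : W.Point} (hRn : n • R = 0)
    (hE : ¬ InE0 A q R) :
    Cg A q (W.c₄ + 120 * ∑ i ∈ Ico 1 n, s₄ W (xOf W (i • R))) W.c₄ ∧
      Cg A q (W.c₆ + 252 * ∑ i ∈ Ico 1 n, s₆ W (xOf W (i • R))) W.c₆ := by
  have num : ∀ k : ℕ, Ge A q (k : ℚbar) 0 := fun k => ge_natCast h k
  constructor
  all_goals
    rw [Cg, add_sub_cancel_left]
    refine (Ge.mul_gt h (s := 0) (num _) (Gt.sum h fun i hi => ?_)).mono (by simp)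
    have hnE : ¬ InE0 A q (i • R) := fun e => hE (inE0_of_nsmul h hN.int hRn (by
      rw [mem_Ico] at hi
      exact ((hn.coprime_iff_not_dvd).mpr fun hd =>
        absurd (Nat.le_of_dvd (by omega) hd) (by omega)).symm) hn.pos e)
    generalize i • R = P at hnE
    rcases P with _ | ⟨x, y, hns⟩
    · exact absurd trivial hnE
    obtain ⟨gx, -⟩ := gt_of_singRed h hN hns.1 (not_not.mp hnE)
    have hx : Cg A q x 0 := by rwa [Cg, sub_zero]
    obtain ⟨k4, k6⟩ := cg_s h hN hx ge_zero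
    first
      | simpa [Cg, xOf] using k4
      | simpa [Cg, xOf] using k6

omit hN in
/-- A unit not congruent to `1` whose `n`-th power is congruent to `1` is congruent to a primitive
`n`-th root. -/
private lemma exists_primitiveRoot_congr {n : ℕ} (hn : n.Prime) {x : ℚbar} (hx : Is A q x 0)
    (hx1 : Is A q (1 - x) 0) (hroot : Gt A q (x ^ n - 1) 0) :
    ∃ μ : ℚbar, IsPrimitiveRoot μ n ∧ Cg A q x μ := by
  obtain ⟨ζ₀, hζ₀⟩ := Fermat.EC.Cyclo.exists_zeta hn
  obtain ⟨μ, hμ, hμg⟩ : ∃ μ : ℚbar, μ ^ n = 1 ∧ Cg A q x μ := by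
    by_contra hc
    push Not at hc
    have hI' : Is A q (∏ μ ∈ Polynomial.nthRootsFinset n (1 : ℚbar), (x - μ)) 0 := by
      refine Finset.prod_induction _ (fun x => Is A q x 0)
        (fun a b ha hb => by simpa using ha.mul h hb) (is_one h) fun μ hμ => ?_
      rw [Polynomial.mem_nthRootsFinset hn.pos] at hμ
      refine Ge.is_of_not_gt (hx.ge.sub h ?_) (hc μ hμ)
      have hμ0 : μ ≠ 0 := fun e => by simp [e, hn.ne_zero] at hμ
      have := (is_ord (A := A) (q := q) hμ0).pow h n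
      rw [hμ] at this
      have h0 := this.unique (is_one h)
      exact Or.inr (by
        rcases mul_eq_zero.mp h0 with h' | h'
        · exact absurd h' (by simp [hn.ne_zero])
        · exact h'.ge)
    apply hI'.not_gt
    have := hζ₀.pow_sub_pow_eq_prod_sub_mul (x := x) (y := 1) hn.pos
    simp only [one_pow, mul_one] at this
    rwa [← this]
  have hμ1 : μ ≠ 1 := by
    rintro rfl
    exact hx1.not_gt (by
      have := hμg.symm h
      exact this)
  refine ⟨μ, IsPrimitiveRoot.iff_orderOf.mpr ?_, hμg⟩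
  have := Fact.mk hn
  exact orderOf_eq_prime hμ hμ1

/-- The tangent coordinate is multiplicative along the multiples of a point. -/
private lemma gv_nsmul {n : ℕ} (hn : 2 ≤ n) {R : W.Point} (hRn : n • R = 0) {α β : ℚbar}
    (hαβ : α + β = -W.a₁) (hprod : α * β = -W.a₂) {X Y : ℕ → ℚbar}
    (H : ∀ i ∈ Ico 1 n, W.Nonsingular (X i) (Y i))
    (e : ∀ i (hi : i ∈ Ico 1 n), i • R = Point.some (X i) (Y i) (H i hi))
    (hI : ∀ i ∈ Ico 1 n, Is A q (X i) 0) :
    (∀ i ∈ Ico 1 n, Cg A q (gv hαβ (X i) (Y i)) (gv hαβ (X 1) (Y 1) ^ i)) ∧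
      Gt A q (gv hαβ (X 1) (Y 1) ^ n - 1) 0 := by
  set g : ℕ → ℚbar := fun i => gv hαβ (X i) (Y i)
  have hg : ∀ i ∈ Ico 1 n, Is A q (g i) 0 ∧ Is A q (1 - g i) 0 := fun i hi =>
    is_gv h hN hαβ hprod (H i hi).1 (hI i hi)
  have h1m : 1 ∈ Ico 1 n := mem_Ico.mpr ⟨le_rfl, by omega⟩
  -- collinear points have tangent coordinates with product `1` modulo the place
  have hstep : ∀ i, i ∈ Ico 1 n → i + 1 ∈ Ico 1 n → Cg A q (g (i + 1)) (g i * g 1) := by
    intro i hi hi'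
    have esum : Point.some _ _ (H i hi) + Point.some _ _ (H 1 h1m)
        = Point.some _ _ (H (i + 1) hi') := by
      rw [← e i hi, ← e 1 h1m, ← e (i + 1) hi', add_nsmul]
    obtain ⟨l, ν, x₃, y₃, h₃, hc, e₃, -, -⟩ := exists_collinear3 (H i hi) (H 1 h1m)
      (by rw [esum]; exact Point.some_ne_zero _)
    rw [esum, Point.neg_some, Point.some.injEq] at e₃
    obtain ⟨ex, ey⟩ := e₃
    have i3 : Is A q x₃ 0 := ex ▸ hI (i + 1) hi'
    have k1 := gv_collinear h hN hαβ hprod hc (H i hi).1 (H 1 h1m).1 h₃.1 (hI i hi) (hI 1 h1m) i3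
    have k2 := gv_neg h hN hαβ hprod h₃.1 i3
    have j1 := (k1.symm h).mul_left h (hg (i + 1) hi').1.ge
    have j2 := k2.mul_left h
      (((hg i hi).1.mul h (hg 1 h1m).1).ge.mono (s := 0) (by simp) : Ge A q (g i * g 1) 0)
    rw [mul_one] at j1 j2
    refine j1.trans h ?_
    simp only [g, ex, ey] at j2 ⊢
    convert j2 using 1
    ring
  have hpow : ∀ i, i ∈ Ico 1 n → Cg A q (g i) (g 1 ^ i) := by
    intro i
    induction i with
    | zero => intro hi; simp at hi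
    | succ i ih =>
      intro hi
      rcases Nat.eq_zero_or_pos i with rfl | hipos
      · rw [pow_one]; exact Cg.refl _
      have hi' : i ∈ Ico 1 n := by rw [mem_Ico] at hi ⊢; omega
      refine (hstep i hi' hi).trans h ?_
      rw [pow_succ]
      exact (ih hi').mul h (Cg.refl _) (by simpa using (hg 1 h1m).1.ge.pow h i) (hg 1 h1m).1.ge
  refine ⟨hpow, ?_⟩
  -- `(n - 1) R = -R` closes the cycle
  have hlast : n - 1 ∈ Ico 1 n := by rw [mem_Ico]; omega
  have eneg : Point.some _ _ (H (n - 1) hlast) = -Point.some _ _ (H 1 h1m) := by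
    rw [← e (n - 1) hlast, ← e 1 h1m, eq_neg_iff_add_eq_zero, ← add_nsmul,
      Nat.sub_add_cancel (by omega : 1 ≤ n), hRn]
  rw [Point.neg_some, Point.some.injEq] at eneg
  have k := gv_neg h hN hαβ hprod (H 1 h1m).1 (hI 1 h1m)
  have k' : Cg A q (g 1 * g (n - 1)) 1 := by
    simp only [g, eneg.1, eneg.2]
    exact k
  refine Cg.trans h ?_ k'
  have := ((hpow (n - 1) hlast).symm h).mul_left h (hg 1 h1m).1.ge
  rwa [← pow_succ', Nat.sub_add_cancel (by omega : 1 ≤ n)] at this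

/-- The abscissa in terms of a root congruent to the tangent coordinate. -/
private lemma cg_x_of_congr {α β : ℚbar} (hαβ : α + β = -W.a₁) (hprod : α * β = -W.a₂)
    {x y z : ℚbar} (hxy : W.Equation x y) (hI : Is A q x 0) (hz : Cg A q (gv hαβ x y) z)
    (hzI : Is A q z 0) :
    Cg A q x (W.b₂ * (z / (1 - z) ^ 2)) ∧ Ge A q (W.b₂ * (z / (1 - z) ^ 2)) 0 := by
  have hden : Cg A q ((1 - gv hαβ x y) ^ 2) ((1 - z) ^ 2) :=
    ((Cg.refl 1).sub h hz).pow h ((is_one h).ge.sub h hzI.ge) 2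
  have hI2 : Is A q ((1 - z) ^ 2) 0 :=
    (hden.symm h).is h (by simpa using (is_gv h hN hαβ hprod hxy hI).2.pow h 2)
  have hgeμ : Ge A q (W.b₂ * z) 0 := by simpa using hN.b₂.ge.mul h hzI.ge
  refine ⟨((cg_x h hN hαβ hprod hxy hI).symm h).trans h ?_, ?_⟩
  · have := (hz.mul_left h hN.b₂.ge).div h hden hgeμ hI2
    simpa only [← mul_div_assoc] using this
  · simpa only [← mul_div_assoc, sub_zero] using hgeμ.div h hI2

/-- The power sums for abscissae congruent to those of the nodal cubic. -/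
private lemma sums_congr {n : ℕ} (hn3 : 3 ≤ n) {R : W.Point} {μ : ℚbar}
    (hprim : IsPrimitiveRoot μ n)
    (hx : ∀ i ∈ Ico 1 n, Cg A q (xOf W (i • R)) (W.b₂ * (μ ^ i / (1 - μ ^ i) ^ 2)) ∧
      Ge A q (W.b₂ * (μ ^ i / (1 - μ ^ i) ^ 2)) 0) :
    Cg A q (W.c₄ + 120 * ∑ i ∈ Ico 1 n, s₄ W (xOf W (i • R))) ((n : ℚbar) ^ 4 * W.c₄) ∧
      Cg A q (W.c₆ + 252 * ∑ i ∈ Ico 1 n, s₆ W (xOf W (i • R))) ((n : ℚbar) ^ 6 * W.c₆) := by
  obtain ⟨c4, c6⟩ := (cg_invariants h hN).2.2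
  have num : ∀ k : ℕ, Ge A q (k : ℚbar) 0 := fun k => ge_natCast h k
  set H' : ℕ → ℚbar := fun i => μ ^ i / (1 - μ ^ i) ^ 2
  obtain ⟨e4, e6⟩ := PowerSums.sum_closed_forms hprim hn3
  constructor
  · have S : Cg A q (∑ i ∈ Ico 1 n, s₄ W (xOf W (i • R)))
        (∑ i ∈ Ico 1 n, W.b₂ ^ 2 * (6 * H' i ^ 2 + H' i)) := Cg.sum h fun i hi => by
      have := (cg_s h hN (hx i hi).1 (hx i hi).2).1
      convert this using 1
      simp only [H']
      ring
    have S' := c4.add h (S.mul_left h (num 120))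
    simp only [Nat.cast_ofNat] at S'
    refine S'.trans h ?_
    rw [← Finset.mul_sum, e4]
    have := (c4.symm h).mul_left h (show Ge A q ((n : ℚbar) ^ 4) 0 by simpa using (num n).pow h 4)
    convert this using 1
    ring
  · have S : Cg A q (∑ i ∈ Ico 1 n, s₆ W (xOf W (i • R)))
        (∑ i ∈ Ico 1 n, W.b₂ ^ 3 * (120 * H' i ^ 3 + 30 * H' i ^ 2 + H' i)) :=
      Cg.sum h fun i hi => by
        have := (cg_s h hN (hx i hi).1 (hx i hi).2).2
        convert this using 1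
        simp only [H']
        ring
    have S' := c6.add h (S.mul_left h (num 252))
    simp only [Nat.cast_ofNat] at S'
    refine S'.trans h ?_
    rw [← Finset.mul_sum, e6]
    have := (c6.symm h).mul_left h (show Ge A q ((n : ℚbar) ^ 6) 0 by simpa using (num n).pow h 6)
    convert this using 1
    ring

/-- Vélu's invariants modulo a place at which the curve has a node. -/
theorem sums_mod {n : ℕ} (hn : n.Prime) (h2 : n ≠ 2) (hqn : q ≠ n) {R : W.Point}
    (hR : addOrderOf R = n) :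
    ∃ e : ℚbar, Is A q e 0 ∧
      Cg A q (W.c₄ + 120 * ∑ i ∈ Ico 1 n, s₄ W (xOf W (i • R))) (e ^ 4 * W.c₄) ∧
      Cg A q (W.c₆ + 252 * ∑ i ∈ Ico 1 n, s₆ W (xOf W (i • R))) (e ^ 6 * W.c₆) := by
  have hn3 : 3 ≤ n := by have := hn.two_le; omega
  have hqn' : ¬ q ∣ n := fun hd => hqn ((Nat.prime_dvd_prime_iff_eq h.1 hn).mp hd)
  have hRn : n • R = 0 := hR ▸ addOrderOf_nsmul_eq_zero R
  have hne : ∀ i ∈ Ico 1 n, i • R ≠ 0 := fun i hi e => by
    rw [← addOrderOf_dvd_iff_nsmul_eq_zero, hR] at e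
    rw [mem_Ico] at hi
    exact absurd (Nat.le_of_dvd (by omega) e) (by omega)
  have hti : ∀ i : ℕ, n • i • R = 0 := fun i => by
    rw [← mul_nsmul', mul_comm, mul_nsmul', hRn, nsmul_zero]
  by_cases hE : InE0 A q R
  swap
  · exact ⟨1, is_one h, by simpa only [one_pow, one_mul] using sums_mod_of_not_inE0 h hN hn hRn hE⟩
  -- the tangent directions
  obtain ⟨d, hd⟩ := IsAlgClosed.exists_pow_nat_eq W.b₂ (n := 2) two_pos
  set α : ℚbar := (-W.a₁ + d) / 2 with hα
  set β : ℚbar := (-W.a₁ - d) / 2 with hβ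
  have hαβ : α + β = -W.a₁ := by rw [hα, hβ]; ring
  have hprod : α * β = -W.a₂ := by
    rw [hα, hβ]
    simp only [b₂] at hd
    linear_combination (-1 / 4 : ℚbar) * hd
  have hpt : ∀ i ∈ Ico 1 n, ∃ x y hns, i • R = Point.some x y hns ∧ Is A q x 0 := fun i hi =>
    exists_unit_x h hN hqn' (hti i) (hne i hi) (hE.nsmul h hN.int i)
  choose! X Y H e hI using hpt
  have h1m : 1 ∈ Ico 1 n := mem_Ico.mpr ⟨le_rfl, by omega⟩
  obtain ⟨hpow, hroot⟩ := gv_nsmul h hN hn.two_le hRn hαβ hprod H e hI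
  -- `g 1` is congruent to a nontrivial root of unity
  obtain ⟨hg1, hg1'⟩ := is_gv h hN hαβ hprod (H 1 h1m).1 (hI 1 h1m)
  obtain ⟨μ, hprim, hμg⟩ := exists_primitiveRoot_congr h hn hg1 hg1' hroot
  have hμI : Is A q μ 0 := (hμg.symm h).is h hg1
  refine ⟨(n : ℚbar), is_natCast h hqn', sums_congr h hN hn3 hprim fun i hi => ?_⟩
  rw [show xOf W (i • R) = X i by rw [e i hi]; rfl]
  exact cg_x_of_congr h hN hαβ hprod (H i hi).1 (hI i hi)
    ((hpow i hi).trans h (hμg.pow h hμI.ge i)) (by simpa using hμI.pow h i)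

end Fermat.HT.Isog
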