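import Fermat.Agent.HT.Isog.Reduction

/-!
# Semistability of the quotient

The main result is `isog_mult`: at `q ≠ n` multiplicative reduction passes to the quotient (the
discriminant staying divisible for `q ≥ 5`).
-/

set_option autoImplicit false

open WeierstrassCurve Finset
open Fermat.EC Fermat.EC.Val

noncomputable section

namespace Fermat.HT.Isog

local notation "ℚbar" => AlgebraicClosure ℚ

/-- The summands `s₄` and `s₆` are invariant under a translation of coordinates. -/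
lemma s₄_trans (E : Affine ℚbar) (r t x : ℚbar) :
    s₄ (changed ⟨1, r, 0, t⟩ E) (x - r) = s₄ E x ∧
      s₆ (changed ⟨1, r, 0, t⟩ E) (x - r) = s₆ E x := by
  simp only [s₄, s₆, changed, variableChange_b₂, variableChange_b₄, variableChange_b₆, inv_one,
    Units.val_one, one_pow, one_mul]
  constructor <;> ring

/-- The invariants `c₄`, `c₆`, `b₂` of the base change to `ℚbar` are the integral ones. -/
lemma intCast_c₄ (W : WeierstrassCurve ℤ) :
    (overQbar W).c₄ = (W.c₄ : ℚbar) ∧ (overQbar W).c₆ = (W.c₆ : ℚbar) ∧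
      (overQbar W).b₂ = (W.b₂ : ℚbar) := by
  simp [overQbar, WeierstrassCurve.baseChange, map_c₄, map_c₆, map_b₂]

variable {W W' : WeierstrassCurve ℤ} {n : ℕ} {Q : (overQbar W).Point}

/-- Multiplicative reduction passes to the quotient. -/
theorem isog_mult (hΔ : W.Δ ≠ 0) (hn : n.Prime) (h2 : n ≠ 2) (hQ : addOrderOf Q = n) {m : ℕ}
    (hc4 : (W'.c₄ : ℚbar) = ((n : ℚbar) ^ m) ^ 4 * (W.c₄ + 240 * veluT (overQbar W) Q n))
    (hc6 : (W'.c₆ : ℚbar) = ((n : ℚbar) ^ m) ^ 6 *
      (W.c₆ + 504 * W.b₂ * veluT (overQbar W) Q n + 6048 * veluU (overQbar W) Q n))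
    {q : ℕ} (hq : q.Prime) (hqn : q ≠ n) (hbad : (q : ℤ) ∣ W.Δ) (hss : ¬ (q : ℤ) ∣ W.c₄) :
    ¬ (q : ℤ) ∣ W'.c₄ ∧ (5 ≤ q → (q : ℤ) ∣ W'.Δ) := by
  obtain ⟨A, hA⟩ := Fermat.CFT.exists_place hq
  have h : IsPlace A q := ⟨hq, hA⟩
  -- move the node to the origin; the kernel sums there are congruent to those of the node
  obtain ⟨C, r, t, rfl, hN⟩ := exists_nodal W h hΔ hbad hss
  set C : VariableChange ℚbar := ⟨1, (r : ℚbar), 0, (t : ℚbar)⟩
  have hR : addOrderOf (pointHom C (overQbar W) Q) = n := by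
    rw [addOrderOf_injective _ (pointHom_injective C (overQbar W)), hQ]
  obtain ⟨e, he, k4, k6⟩ := sums_mod h hN hn h2 hqn hR
  -- the translation shifts abscissas by `r` and preserves `s₄`, `s₆`
  have hx : ∀ i ∈ Ico 1 n, xOf (changed C (overQbar W)) (i • pointHom C (overQbar W) Q) =
      xOf (overQbar W) (i • Q) - r := by
    intro i hi
    rw [← map_nsmul]
    have hne : i • Q ≠ 0 := fun e' => by
      rw [← addOrderOf_dvd_iff_nsmul_eq_zero, hQ] at e'
      rw [mem_Ico] at hi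
      exact absurd (Nat.le_of_dvd (by omega) e') (by omega)
    generalize i • Q = P at hne
    rcases P with _ | ⟨x, y, hns⟩
    · exact absurd rfl hne
    · simp [xOf, pointHom_some, newX, C]
  obtain ⟨ec4, ec6, eb2⟩ := intCast_c₄ W
  have i4 : (changed C (overQbar W)).c₄ = W.c₄ := by simp [changed, C, variableChange_c₄, ← ec4]
  have i6 : (changed C (overQbar W)).c₆ = W.c₆ := by simp [changed, C, variableChange_c₆, ← ec6]
  have s4 : ∑ i ∈ Ico 1 n, s₄ (changed C (overQbar W))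
    (xOf (changed C (overQbar W)) (i • pointHom C (overQbar W) Q))
      = 2 * veluT (overQbar W) Q n := by
    rw [veluT, mul_div_cancel₀ _ (two_ne_zero' ℚbar), sum_kerSet_erase hQ]
    refine sum_congr rfl fun i hi => ?_
    rw [hx i hi]
    exact (s₄_trans (overQbar W) r t _).1
  have s6 : ∑ i ∈ Ico 1 n, s₆ (changed C (overQbar W))
    (xOf (changed C (overQbar W)) (i • pointHom C (overQbar W) Q))
      = W.b₂ * (2 * veluT (overQbar W) Q n) + 12 * (2 * veluU (overQbar W) Q n) := by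
    rw [veluT, veluU, mul_div_cancel₀ _ (two_ne_zero' ℚbar), mul_div_cancel₀ _ (two_ne_zero' ℚbar),
      sum_kerSet_erase hQ, sum_kerSet_erase hQ, mul_sum, mul_sum, ← sum_add_distrib]
    refine sum_congr rfl fun i hi => ?_
    rw [hx i hi, (s₄_trans (overQbar W) r t _).2, s₆, ← eb2]
    ring
  rw [i4, s4] at k4
  rw [i6, s6] at k6
  set N : ℚbar := (n : ℚbar) ^ m with hN'
  have hNI : Is A q N 0 := by
    simpa [hN'] using (is_natCast (A := A) h fun hd =>
      hqn ((Nat.prime_dvd_prime_iff_eq hq hn).mp hd)).pow h m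
  -- `c₄`, `c₆` of the quotient are congruent to those of `W` scaled by a unit
  have K4 : Cg A q (W'.c₄ : ℚbar) ((N * e) ^ 4 * W.c₄) := by
    have := k4.mul_left h (show Ge A q (N ^ 4) 0 by simpa using hNI.ge.pow h 4)
    rw [hc4, mul_pow, mul_assoc]
    convert this using 1; ring
  have K6 : Cg A q (W'.c₆ : ℚbar) ((N * e) ^ 6 * W.c₆) := by
    have := k6.mul_left h (show Ge A q (N ^ 6) 0 by simpa using hNI.ge.pow h 6)
    rw [hc6, mul_pow, mul_assoc]
    convert this using 1 <;> ring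
  have hu : Is A q (N * e) 0 := by simpa using hNI.mul h he
  have hI : Is A q (W'.c₄ : ℚbar) 0 :=
    K4.is h (by simpa using (hu.pow h 4).mul h (is_intCast (A := A) h hss))
  -- so `q ∤ c₄'`; for `q ≥ 5` the relation `1728 Δ = c₄³ - c₆²` gives `q ∣ Δ'`
  refine ⟨fun hd => ?_, fun h5 => ?_⟩
  · exact hI.not_gt ((ge_intCast_of_dvd h (k := 1) (by simpa using hd)).gt (by norm_num))
  · by_contra hd
    have h1728 : ¬ (q : ℤ) ∣ 1728 := fun hd' => by
      have h' : q ∣ 2 ^ 6 * 3 ^ 3 := by exact_mod_cast hd'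
      rcases (Nat.Prime.dvd_mul hq).mp h' with h'' | h''
      · have := Nat.le_of_dvd two_pos (hq.dvd_of_dvd_pow h''); omega
      · have := Nat.le_of_dvd (by norm_num) (hq.dvd_of_dvd_pow h''); omega
    have hI' : Is A q ((1728 * W'.Δ : ℤ) : ℚbar) 0 := is_intCast h fun hd' =>
      (Int.Prime.dvd_mul' hq hd').elim h1728 hd
    apply hI'.not_gt
    have g4 : Cg A q ((W'.c₄ : ℚbar) ^ 3) (((N * e) ^ 4 * W.c₄) ^ 3) :=
      K4.pow h (by simpa using (hu.ge.pow h 4).mul h (ge_intCast (A := A) h W.c₄)) 3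
    have g6 : Cg A q ((W'.c₆ : ℚbar) ^ 2) (((N * e) ^ 6 * W.c₆) ^ 2) :=
      K6.pow h (by simpa using (hu.ge.pow h 6).mul h (ge_intCast (A := A) h W.c₆)) 2
    have g := g4.sub h g6
    have hrel : ((1728 * W'.Δ : ℤ) : ℚbar) = (W'.c₄ : ℚbar) ^ 3 - (W'.c₆ : ℚbar) ^ 2 := by
      exact_mod_cast W'.c_relation
    have hz : Gt A q (((N * e) ^ 4 * W.c₄) ^ 3 - ((N * e) ^ 6 * W.c₆) ^ 2) 0 := by
      rw [show ((N * e) ^ 4 * (W.c₄ : ℚbar)) ^ 3 - ((N * e) ^ 6 * W.c₆) ^ 2
        = (N * e) ^ 12 * ((1728 * W.Δ : ℤ) : ℚbar) by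
          have : ((1728 * W.Δ : ℤ) : ℚbar) = (W.c₄ : ℚbar) ^ 3 - (W.c₆ : ℚbar) ^ 2 := by
            exact_mod_cast W.c_relation
          rw [this]; ring]
      refine (Ge.mul_gt h (hu.ge.pow h 12) ((ge_intCast_of_dvd h (k := 1)
        (by simpa using dvd_mul_of_dvd_right hbad 1728)).gt (s := 0) (by norm_num))).mono ?_
      simp
    rw [hrel]
    have := Gt.add h g hz
    rwa [sub_add_cancel] at this

end Fermat.HT.Isog
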